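import Fermat.Agent.Jac.Dict.Sheaf

/-!
# S25: pulling back the sheaf of line bundle data
-/

set_option autoImplicit false

universe u

open CategoryTheory CategoryTheory.Limits AlgebraicGeometry AlgebraicGeometry.RelPicard
  NeronModelInfra TensorProduct TopologicalSpace

namespace FLTAgent.Jac.Dict

section Adj

variable {X X' Z W : Scheme.{u}} (g : X' ⟶ X) {j : Z ⟶ X'} {F : X.Modules} {G H : Z.Modules}

/-- The adjoint of a morphism out of a pullback, to the pushforward along the composite. -/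
noncomputable def hq (q : (Scheme.Modules.pullback g).obj F ⟶
    (Scheme.Modules.pushforward j).obj G) :
    F ⟶ (Scheme.Modules.pushforward (j ≫ g)).obj G :=
  (Scheme.Modules.pullbackPushforwardAdjunction g).homEquiv _ _ q ≫
    (Scheme.Modules.pushforwardComp j g).hom.app G

theorem hq_bijective : Function.Bijective
    (hq (j := j) (F := F) (G := G) g) := by
  refine (show Function.Bijective (fun a : F ⟶ (Scheme.Modules.pushforward g).obj
      ((Scheme.Modules.pushforward j).obj G) =>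
      a ≫ (Scheme.Modules.pushforwardComp j g).hom.app G) from ?_).comp
    ((Scheme.Modules.pullbackPushforwardAdjunction g).homEquiv _ _).bijective
  exact ⟨fun a b h => (cancel_mono _).1 h,
    fun a => ⟨a ≫ (Scheme.Modules.pushforwardComp j g).inv.app G, by simp⟩⟩

theorem hq_map (q : (Scheme.Modules.pullback g).obj F ⟶ (Scheme.Modules.pushforward j).obj G)
    (x : G ⟶ H) :
    hq g (q ≫ (Scheme.Modules.pushforward j).map x) =
      hq g q ≫ (Scheme.Modules.pushforward (j ≫ g)).map x := by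
  rw [hq, hq, Adjunction.homEquiv_naturality_right, Category.assoc, Category.assoc]
  congr 1

theorem hq_pcomp {ι : W ⟶ Z} {K : W.Modules} {jι : W ⟶ X'} (h : ι ≫ j = jι)
    (h' : ι ≫ j ≫ g = jι ≫ g)
    (q : (Scheme.Modules.pullback g).obj F ⟶ (Scheme.Modules.pushforward j).obj G)
    (x : G ⟶ (Scheme.Modules.pushforward ι).obj K) :
    hq g (pcomp h q x) = pcomp h' (hq g q) x := by
  subst h
  rw [hq, hq, pcomp, Adjunction.homEquiv_naturality_right]
  ext U x
  simp [pcomp]

end Adj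

section Square

variable {R S T : CommRingCat.{u}}

theorem pcomp_toPush_app (f1 : R ⟶ S) (f2 : S ⟶ T) {e : Spec T ⟶ Spec R}
    (h : Spec.map f2 ≫ Spec.map f1 = e) {P Q U : Type u} [AddCommGroup P] [Module R P]
    [AddCommGroup Q] [Module S Q] [AddCommGroup U] [Module T U]
    (ρ1 : P →ₛₗ[f1.hom] Q) (ρ2 : Q →ₛₗ[f2.hom] U) (m : P) :
    (pcomp h (toPush f1 ρ1) (toPush f2 ρ2)).app ⊤ (tp R P m) = tp T U (ρ2 (ρ1 m)) := by
  subst h
  rw [pcomp_app]
  show (toPush f2 ρ2).app ⊤ ((toPush f1 ρ1).app ⊤ (tp R P m)) = _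
  rw [toPush_app]
  exact toPush_app f2 ρ2 (ρ1 m)

theorem toPush_square {S' : CommRingCat.{u}} (f1 : R ⟶ S) (f2 : S ⟶ T) (f3 : R ⟶ S')
    (f4 : S' ⟶ T) {e : Spec T ⟶ Spec R} (h : Spec.map f2 ≫ Spec.map f1 = e)
    (h' : Spec.map f4 ≫ Spec.map f3 = e) {P Q Q' U : Type u} [AddCommGroup P] [Module R P]
    [AddCommGroup Q] [Module S Q] [AddCommGroup Q'] [Module S' Q'] [AddCommGroup U] [Module T U]
    (ρ1 : P →ₛₗ[f1.hom] Q) (ρ2 : Q →ₛₗ[f2.hom] U) (ρ3 : P →ₛₗ[f3.hom] Q')
    (ρ4 : Q' →ₛₗ[f4.hom] U) (hρ : ∀ m, ρ2 (ρ1 m) = ρ4 (ρ3 m)) :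
    pcomp h (toPush f1 ρ1) (toPush f2 ρ2) = pcomp h' (toPush f3 ρ3) (toPush f4 ρ4) :=
  tM_hom_ext fun m => by rw [pcomp_toPush_app, pcomp_toPush_app, hρ]

end Square

variable {k : Type u} [Field k] {C : Scheme.{u}} {c : C ⟶ Spec (CommRingCat.of k)}
  {ε : SchemeHomOver (𝟙 (Spec (CommRingCat.of k))) c} {M : Model k}
  (φ : CurveChart c ε M) {A B : Type u} [CommRing A] [Algebra k A] [CommRing B] [Algebra k B]
  (f : A →ₐ[k] B)

variable (c) in
/-- The morphism `C × Spec B ⟶ C × Spec A`. -/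
noncomputable def bcMap : pullback c (specOver k B) ⟶ pullback c (specOver k A) :=
  baseChangeSnd c (t := specOver k A) (t' := specOver k B)
    ⟨Spec.map (CommRingCat.ofHom f.toRingHom), by
      rw [specOver, ← Spec.map_comp]; congr 1; ext r; exact f.commutes r⟩

theorem chartA_bcMap {S : Type u} [CommRing S] [Algebra k S] {j : Spec (CommRingCat.of S) ⟶ C}
    (hj : j ≫ c = Spec.map (CommRingCat.ofHom (algebraMap k S))) :
    Spec.map (CommRingCat.ofHom (Algebra.TensorProduct.map f (AlgHom.id k S)).toRingHom) ≫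
      chartA hj A = chartA hj B ≫ bcMap c f := by
  apply pullback.hom_ext
  · rw [Category.assoc, chartA_fst, Category.assoc, bcMap, baseChangeSnd, pullback.lift_fst,
      Category.comp_id, chartA_fst, ← Category.assoc, ← Spec.map_comp]
    congr 2
    ext r
    simp
  · rw [Category.assoc, chartA_snd, Category.assoc, bcMap, baseChangeSnd, pullback.lift_snd,
      ← Category.assoc, chartA_snd, ← Spec.map_comp, ← Spec.map_comp]
    congr 1

/-- The ring map of the first charts. -/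
noncomputable abbrev bP : CommRingCat.of (M.Ap A) ⟶ CommRingCat.of (M.Ap B) :=
  CommRingCat.ofHom (M.mapP f).toRingHom

/-- The ring map of the second charts. -/
noncomputable abbrev bM : CommRingCat.of (M.Am A) ⟶ CommRingCat.of (M.Am B) :=
  CommRingCat.ofHom (M.mapM f).toRingHom

/-- The ring map of the overlaps. -/
noncomputable abbrev bN : CommRingCat.of (M.Apm A) ⟶ CommRingCat.of (M.Apm B) :=
  CommRingCat.ofHom (M.mapPM f).toRingHom

theorem pullback_sheafOf {L : LineData M A} {L' : LineData M B} (b : LineData.IsBC f L L') :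
    Nonempty ((Scheme.Modules.pullback (bcMap c f)).obj (sheafOf φ L) ≅ sheafOf φ L') := by
  obtain ⟨ψ, sp, sm⟩ := b
  let g := bcMap c f
  have hP : Spec.map (bP f) ≫ φ.jpA A = φ.jpA B ≫ g := chartA_bcMap f φ.jp_over
  have hM : Spec.map (bM f) ≫ φ.jmA A = φ.jmA B ≫ g := chartA_bcMap f φ.jm_over
  have hN : Spec.map (bN f) ≫ joA φ A = joA φ B ≫ g := chartA_bcMap f (jo_over φ)
  let θfp : Gp L ⟶ (Scheme.Modules.pushforward (Spec.map (bP f))).obj (Gp L') := toPush (bP f) ψ.fp
  let θfm : Gm L ⟶ (Scheme.Modules.pushforward (Spec.map (bM f))).obj (Gm L') := toPush (bM f) ψ.fm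
  let θfn : Gn L ⟶ (Scheme.Modules.pushforward (Spec.map (bN f))).obj (Gn L') := toPush (bN f) ψ.fn
  obtain ⟨qp, hqp⟩ := (hq_bijective g).2 (pcomp hP (sheafFst φ L) θfp)
  obtain ⟨qm, hqm⟩ := (hq_bijective g).2 (pcomp hM (sheafSnd φ L) θfm)
  have up : IsUniv (φ.jpA B) qp := isUniv_of_bijective fun H => by
    have e : (fun x : Gp L' ⟶ H => hq g (qp ≫ (Scheme.Modules.pushforward (φ.jpA B)).map x)) =
        (pcomp hP (sheafFst φ L)) ∘
          fun x => θfp ≫ (Scheme.Modules.pushforward (Spec.map (bP f))).map x := by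
      funext x
      simp only [Function.comp_apply, hq_map, hqp, pcomp_map_right]
    refine ((hq_bijective (G := H) g).of_comp_iff' _).1 ?_
    show Function.Bijective fun x : Gp L' ⟶ H =>
      hq g (qp ≫ (Scheme.Modules.pushforward (φ.jpA B)).map x)
    rw [e]
    exact (pcomp_injective hP (isUniv_sheafFst L)).comp (toPush_bijective (bP f) ψ.fp sp H)
  have um : IsUniv (φ.jmA B) qm := isUniv_of_bijective fun H => by
    have e : (fun x : Gm L' ⟶ H => hq g (qm ≫ (Scheme.Modules.pushforward (φ.jmA B)).map x)) =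
        (pcomp hM (sheafSnd φ L)) ∘
          fun x => θfm ≫ (Scheme.Modules.pushforward (Spec.map (bM f))).map x := by
      funext x
      simp only [Function.comp_apply, hq_map, hqm, pcomp_map_right]
    refine ((hq_bijective (G := H) g).of_comp_iff' _).1 ?_
    show Function.Bijective fun x : Gm L' ⟶ H =>
      hq g (qm ≫ (Scheme.Modules.pushforward (φ.jmA B)).map x)
    rw [e]
    exact (pcomp_injective hM (isUniv_sheafSnd L)).comp (toPush_bijective (bM f) ψ.fm sm H)
  refine nonempty_iso_sheafOf up um ((hq_bijective g).1 ?_)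
  have a1 : Spec.map (fp M B) ≫ φ.jpA B ≫ g = joA φ B ≫ g := by
    rw [← Category.assoc, fp_comp]
  have a2 : Spec.map (fm M B) ≫ φ.jmA B ≫ g = joA φ B ≫ g := by
    rw [← Category.assoc, fm_comp]
  have sqP : Spec.map (fp M B) ≫ Spec.map (bP f) = Spec.map (bN f) ≫ Spec.map (fp M A) := by
    rw [← Spec.map_comp, ← Spec.map_comp]
    congr 1
    ext1
    show (M.ipA B).toRingHom.comp (M.mapP f).toRingHom =
      (M.mapPM f).toRingHom.comp (M.ipA A).toRingHom
    ext r <;> simp [Model.ipA, Model.mapP, Model.mapPM]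
  have sqM : Spec.map (fm M B) ≫ Spec.map (bM f) = Spec.map (bN f) ≫ Spec.map (fm M A) := by
    rw [← Spec.map_comp, ← Spec.map_comp]
    congr 1
    ext1
    show (M.imA B).toRingHom.comp (M.mapM f).toRingHom =
      (M.mapPM f).toRingHom.comp (M.imA A).toRingHom
    ext r <;> simp [Model.imA, Model.mapM, Model.mapPM]
  have b1 : (Spec.map (bN f) ≫ Spec.map (fp M A)) ≫ φ.jpA A = joA φ B ≫ g := by
    rw [Category.assoc, fp_comp, hN]
  have b2 : (Spec.map (bN f) ≫ Spec.map (fm M A)) ≫ φ.jmA A = joA φ B ≫ g := by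
    rw [Category.assoc, fm_comp, hN]
  calc hq g (pcomp (fp_comp φ B) qp (θp L'))
      = pcomp a1 (hq g qp) (θp L') := hq_pcomp g _ a1 qp _
    _ = pcomp a1 (pcomp hP (sheafFst φ L) θfp) (θp L') := by rw [hqp]
    _ = pcomp b1 (sheafFst φ L) (pcomp sqP θfp (θp L')) := pcomp_assoc _ _ _ _ _ _ _
    _ = pcomp b1 (sheafFst φ L)
          (pcomp (rfl : Spec.map (bN f) ≫ Spec.map (fp M A) = _) (θp L) θfn) := by
        rw [toPush_square (bP f) (fp M B) (fp M A) (bN f) sqP rfl ψ.fp L'.ρp L.ρp ψ.fn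
          fun m => (ψ.comm_p m).symm]
    _ = pcomp hN (pcomp (fp_comp φ A) (sheafFst φ L) (θp L)) θfn :=
        (pcomp_assoc _ _ _ _ _ _ _).symm
    _ = pcomp hN (pcomp (fm_comp φ A) (sheafSnd φ L) (θm L)) θfn := by rw [sheaf_condition]
    _ = pcomp b2 (sheafSnd φ L)
          (pcomp (rfl : Spec.map (bN f) ≫ Spec.map (fm M A) = _) (θm L) θfn) :=
        pcomp_assoc _ _ _ _ _ _ _
    _ = pcomp b2 (sheafSnd φ L) (pcomp sqM θfm (θm L')) := by
        rw [toPush_square (bM f) (fm M B) (fm M A) (bN f) sqM rfl ψ.fm L'.ρm L.ρm ψ.fn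
          fun m => (ψ.comm_m m).symm]
    _ = pcomp a2 (pcomp hM (sheafSnd φ L) θfm) (θm L') := (pcomp_assoc _ _ _ _ _ _ _).symm
    _ = pcomp a2 (hq g qm) (θm L') := by rw [hqm]
    _ = hq g (pcomp (fm_comp φ B) qm (θm L')) := (hq_pcomp g _ a2 qm _).symm

end FLTAgent.Jac.Dict
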