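import Fermat.Agent.Jac.Dict.Sections
import Fermat.Agent.Jac.Coh

/-!
# S25: the section and rigidifications
-/

set_option autoImplicit false

universe u

open CategoryTheory CategoryTheory.Limits AlgebraicGeometry AlgebraicGeometry.RelPicard
  NeronModelInfra TensorProduct TopologicalSpace

namespace FLTAgent.Jac.Dict

theorem isIso_of_precomp_bijective {𝒞 : Type*} [Category 𝒞] {P Q : 𝒞} (q : P ⟶ Q)
    (h : ∀ H : 𝒞, Function.Bijective fun x : Q ⟶ H => q ≫ x) : IsIso q := by
  obtain ⟨l, hl⟩ := (h P).2 (𝟙 P)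
  dsimp only at hl
  exact ⟨l, hl, (h Q).1 (by simp [reassoc_of% hl])⟩

theorem precomp_iso_bijective {𝒞 : Type*} [Category 𝒞] {P Q H : 𝒞} (e : P ≅ Q) :
    Function.Bijective fun x : Q ⟶ H => e.hom ≫ x :=
  ⟨fun _ _ h => (cancel_epi e.hom).1 h, fun a => ⟨e.inv ≫ a, by simp⟩⟩

variable {k : Type u} [Field k] {C : Scheme.{u}} {c : C ⟶ Spec (CommRingCat.of k)}
  {ε : SchemeHomOver (𝟙 (Spec (CommRingCat.of k))) c} {M : Model k}
  (φ : CurveChart c ε M) (A : Type u) [CommRing A] [Algebra k A]

/-- The section on the ring of the second chart. -/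
noncomputable abbrev secHom : CommRingCat.of (M.Am A) ⟶ CommRingCat.of A :=
  CommRingCat.ofHom (M.ptM (Model.constPt φ.e A)).toRingHom

theorem secHom_surjective (a : A) : ∃ r : M.Am A, secHom φ A r = a :=
  ⟨algebraMap A (M.Am A) a, (M.ptM (Model.constPt φ.e A)).commutes a⟩

theorem secHom_comp :
    Spec.map (secHom φ A) ≫ φ.jmA A = rigSection c (specOver k A) ε := by
  apply pullback.hom_ext
  · rw [Category.assoc, CurveChart.jmA, pullback.lift_fst, rigSection, pullback.lift_fst,
      ← φ.eps, specOver, ← Category.assoc, ← Category.assoc, ← Spec.map_comp, ← Spec.map_comp]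
    congr 2
    ext r
    simp [Model.ptM, Model.constPt, Algebra.ofId_apply]
  · rw [Category.assoc, CurveChart.jmA, pullback.lift_snd, rigSection, pullback.lift_snd,
      ← Spec.map_comp, ← Spec.map_id]
    congr 1
    ext a
    exact (M.ptM (Model.constPt φ.e A)).commutes a

variable {φ A}

/-- Morphisms out of the restriction to the section. -/
theorem bijective_adj_sec (L : LineData M A) (H : (Spec (CommRingCat.of A)).Modules) :
    Function.Bijective fun x : Gm L ⟶
        (Scheme.Modules.pushforward (Spec.map (secHom φ A))).obj H =>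
      ((Scheme.Modules.pullbackPushforwardAdjunction
        (rigSection c (specOver k A) ε)).homEquiv (sheafOf φ L) H).symm
          (pcomp (secHom_comp φ A) (sheafSnd φ L) x) :=
  (Equiv.bijective _).comp (pcomp_injective _ (isUniv_sheafSnd L))

theorem rigid_iff (L : LineData M A) :
    Nonempty ((Scheme.Modules.pullback (rigSection c (specOver k A) ε)).obj (sheafOf φ L) ≅
      tM (CommRingCat.of A) A) ↔ LineData.Rigidifiable φ.e L := by
  let adj := Scheme.Modules.pullbackPushforwardAdjunction (rigSection c (specOver k A) ε)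
  constructor
  · rintro ⟨e⟩
    obtain ⟨θ, hθ⟩ := (bijective_adj_sec (φ := φ) L _).2 e.hom
    dsimp only at hθ
    obtain ⟨ψ, rfl⟩ := exists_eq_toPush (secHom φ A) θ
    refine ⟨ψ, ?_⟩
    let P : Submodule A A := Submodule.span A (Set.range ψ)
    have hP : P = ⊤ := by
      have key : ∀ x : tM (CommRingCat.of A) A ⟶ tM (CommRingCat.of A) (A ⧸ P),
          e.hom ≫ x = (adj.homEquiv _ _).symm (pcomp (secHom_comp φ A) (sheafSnd φ L)
            (toPush (secHom φ A) ψ ≫ (Scheme.Modules.pushforward _).map x)) := fun x => by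
        rw [← hθ, ← pcomp_map_right, Adjunction.homEquiv_naturality_right_symm]
      have h0 : tilde.map (R := CommRingCat.of A) (ModuleCat.ofHom P.mkQ) =
          tilde.map (R := CommRingCat.of A) (ModuleCat.ofHom (0 : A →ₗ[A] A ⧸ P)) := by
        refine (precomp_iso_bijective e).1 ?_
        show e.hom ≫ _ = e.hom ≫ _
        rw [key, key]
        congr 2
        refine tM_hom_ext fun m => ?_
        rw [Scheme.Modules.Hom.comp_app, Scheme.Modules.Hom.comp_app, ConcreteCategory.comp_apply,
          ConcreteCategory.comp_apply, toPush_app]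
        refine (tilde_map_tp (R := CommRingCat.of A) P.mkQ (ψ m)).trans (Eq.trans ?_
          (tilde_map_tp (R := CommRingCat.of A) (0 : A →ₗ[A] A ⧸ P) (ψ m)).symm)
        congr 1
        exact (Submodule.Quotient.mk_eq_zero P).2 (Submodule.subset_span ⟨m, rfl⟩)
      rw [Submodule.eq_top_iff']
      intro a
      apply (Submodule.Quotient.mk_eq_zero P).1
      apply (tp_bijective (CommRingCat.of A) (A ⧸ P)).1
      have h1 := congr(($h0).app ⊤ (tp (CommRingCat.of A) A a))
      rw [tilde_map_tp, tilde_map_tp] at h1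
      exact h1
    intro a
    have ha : a ∈ P := hP ▸ Submodule.mem_top
    induction ha using Submodule.span_induction with
    | mem x hx => exact hx
    | zero => exact ⟨0, map_zero _⟩
    | add x y _ _ hx hy =>
      obtain ⟨m, rfl⟩ := hx
      obtain ⟨m', rfl⟩ := hy
      exact ⟨m + m', map_add _ _ _⟩
    | smul b x _ hx =>
      obtain ⟨m, rfl⟩ := hx
      obtain ⟨r, rfl⟩ := secHom_surjective φ A b
      exact ⟨r • m, map_smulₛₗ _ _ _⟩
  · rintro ⟨ψ, hψ⟩
    have hs : Submodule.span A (Set.range ψ) = ⊤ := by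
      rw [Set.range_eq_univ.2 hψ, Submodule.span_univ]
    let θ : Gm L ⟶ (Scheme.Modules.pushforward (Spec.map (secHom φ A))).obj
        (tM (CommRingCat.of A) A) := toPush (secHom φ A) ψ
    let q := (adj.homEquiv _ _).symm (pcomp (secHom_comp φ A) (sheafSnd φ L) θ)
    have : IsIso q := isIso_of_precomp_bijective q fun H => by
      have e : (fun x : tM (CommRingCat.of A) A ⟶ H => q ≫ x) =
          (fun y => (adj.homEquiv _ H).symm (pcomp (secHom_comp φ A) (sheafSnd φ L) y)) ∘
            fun x => θ ≫ (Scheme.Modules.pushforward (Spec.map (secHom φ A))).map x := by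
        funext x
        simp only [Function.comp_apply, q]
        rw [← Adjunction.homEquiv_naturality_right_symm, pcomp_map_right]
      rw [e]
      exact (bijective_adj_sec L H).comp (toPush_bijective (secHom φ A) ψ hs H)
    exact ⟨asIso q⟩

/-! ### Automorphisms -/

theorem exists_scalar {R : Type u} [CommRing R] {P : Type u} [AddCommGroup P] [Module R P]
    [Module.Invertible R P] (f : P →ₗ[R] P) : ∃ r : R, ∀ m, f m = r • m := by
  obtain ⟨r, hr⟩ := (Module.Invertible.toModuleEnd_bijective (R := R) (M := P)).2 f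
  exact ⟨r, fun m => (LinearMap.congr_fun hr m).symm⟩

theorem aut_eq_id (L : LineData M A) (a : sheafOf φ L ⟶ sheafOf φ L)
    (h : (Scheme.Modules.pullback (rigSection c (specOver k A) ε)).map a = 𝟙 _) :
    a = 𝟙 (sheafOf φ L) := by
  let adj := Scheme.Modules.pullbackPushforwardAdjunction (rigSection c (specOver k A) ε)
  obtain ⟨gp, hgp⟩ := (isUniv_sheafFst (φ := φ) L).exists_desc (a ≫ sheafFst φ L)
  obtain ⟨gm, hgm⟩ := (isUniv_sheafSnd (φ := φ) L).exists_desc (a ≫ sheafSnd φ L)
  have hn : IsUniv (joA φ A) (pcomp (fp_comp φ A) (sheafFst φ L) (θp L)) :=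
    (isUniv_sheafFst L).pcomp (isUniv_θp L) (fp_comp φ A)
  obtain ⟨gn, hgn⟩ := hn.exists_desc (pcomp (fp_comp φ A) (a ≫ sheafFst φ L) (θp L))
  have e1 : gp ≫ θp L = θp L ≫ (Scheme.Modules.pushforward (Spec.map (fp M A))).map gn := by
    apply (pcomp_injective (fp_comp φ A) (isUniv_sheafFst L)).1
    rw [← pcomp_map_left, hgp, ← pcomp_map_right, hgn]
  have e2 : gm ≫ θm L = θm L ≫ (Scheme.Modules.pushforward (Spec.map (fm M A))).map gn := by
    apply (pcomp_injective (fm_comp φ A) (isUniv_sheafSnd L)).1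
    rw [← pcomp_map_left, hgm, ← pcomp_map_right, ← sheaf_condition, hgn, ← precomp_pcomp,
      ← precomp_pcomp, sheaf_condition]
  obtain ⟨ap, hap, -⟩ := exists_linear_of_hom (R := CommRingCat.of (M.Ap A)) (P := L.Mp)
    (Q := L.Mp) gp
  obtain ⟨am, ham, -⟩ := exists_linear_of_hom (R := CommRingCat.of (M.Am A)) (P := L.Mm)
    (Q := L.Mm) gm
  obtain ⟨an, han, -⟩ := exists_linear_of_hom (R := CommRingCat.of (M.Apm A)) (P := L.N)
    (Q := L.N) gn
  rw [hap, han] at e1
  rw [ham, han] at e2
  have c1 := (toPush_natural (fp M A) L.ρp L.ρp ap an).1 e1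
  have c2 := (toPush_natural (fm M A) L.ρm L.ρm am an).1 e2
  obtain ⟨u, hu⟩ := exists_scalar (R := M.Ap A) ap
  obtain ⟨v, hv⟩ := exists_scalar (R := M.Am A) am
  have h1 : ∀ n, an n = M.ipA A u • n := fun n => by
    obtain ⟨i, m, hm⟩ := L.ρp_surj n
    refine ((M.xU A).isUnit.pow i).smul_left_cancel.1 ?_
    rw [← map_smul, hm, c1, hu, map_smulₛₗ, smul_comm, hm]
    rfl
  have h2 : ∀ n, an n = M.imA A v • n := fun n => by
    obtain ⟨i, m, hm⟩ := L.ρm_surj n
    refine (((M.xU A)⁻¹).isUnit.pow i).smul_left_cancel.1 ?_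
    rw [← map_smul, hm, c2, hv, map_smulₛₗ, smul_comm, hm]
    rfl
  have huv : M.ipA A u = M.imA A v :=
    eq_of_smul_eq_smul (α := L.N) fun n => (h1 n).symm.trans (h2 n)
  obtain ⟨r, rfl, rfl⟩ := glob_A u v huv
  let : Algebra (M.Am A) A := (secHom φ A).hom.toAlgebra
  let P := A ⊗[M.Am A] L.Mm
  let ψ : L.Mm →ₛₗ[(secHom φ A).hom] P :=
    { toFun := fun m => (1 : A) ⊗ₜ m
      map_add' := fun x y => TensorProduct.tmul_add _ x y
      map_smul' := fun s m => by
        rw [← TensorProduct.smul_tmul, TensorProduct.smul_tmul', smul_eq_mul, mul_one]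
        rw [Algebra.smul_def, mul_one]
        rfl }
  let θ : Gm L ⟶ (Scheme.Modules.pushforward (Spec.map (secHom φ A))).obj
      (tM (CommRingCat.of A) P) := toPush (secHom φ A) ψ
  have key : gm ≫ θ = θ := by
    apply (pcomp_injective (secHom_comp φ A) (isUniv_sheafSnd L)).1
    rw [← pcomp_map_left, hgm, ← precomp_pcomp]
    apply (adj.homEquiv _ _).symm.injective
    rw [Adjunction.homEquiv_naturality_left_symm, h, Category.id_comp]
  have h3 : ∀ z : P, r • z = z := by
    intro z
    induction z using TensorProduct.induction_on with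
    | zero => exact smul_zero _
    | add x y hx hy => rw [smul_add, hx, hy]
    | tmul b m =>
      have h4 : ψ (algebraMap A (M.Am A) r • m) = ψ m := by
        apply (tp_bijective (CommRingCat.of A) P).1
        rw [← toPush_app (secHom φ A) ψ, ← toPush_app (secHom φ A) ψ, ← hv,
          ← tilde_map_tp (R := CommRingCat.of (M.Am A)) am, ← ham]
        exact congr(($key).app ⊤ (tp (CommRingCat.of (M.Am A)) L.Mm m))
      have h5 : r • ψ m = ψ m := by
        rw [map_smulₛₗ] at h4
        rwa [show (secHom φ A).hom (algebraMap A (M.Am A) r) = r from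
          (M.ptM (Model.constPt φ.e A)).commutes r] at h4
      calc r • (b ⊗ₜ[M.Am A] m) = b • (r • ψ m) := by
            show _ = b • r • ((1 : A) ⊗ₜ[M.Am A] m)
            rw [TensorProduct.smul_tmul', TensorProduct.smul_tmul', TensorProduct.smul_tmul',
              smul_eq_mul, smul_eq_mul, smul_eq_mul, mul_one, mul_comm]
        _ = b • ψ m := by rw [h5]
        _ = b ⊗ₜ[M.Am A] m := by
            show b • ((1 : A) ⊗ₜ[M.Am A] m) = _
            rw [TensorProduct.smul_tmul', smul_eq_mul, mul_one]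
  have hr : r = 1 :=
    eq_of_smul_eq_smul (α := P) fun z => (h3 z).trans (one_smul A z).symm
  subst hr
  have ip : gp = 𝟙 _ := by
    rw [hap, show ap = LinearMap.id from LinearMap.ext fun m => by rw [hu, map_one, one_smul]; rfl]
    exact tilde.map_id
  have im : gm = 𝟙 _ := by
    rw [ham, show am = LinearMap.id from LinearMap.ext fun m => by rw [hv, map_one, one_smul]; rfl]
    exact tilde.map_id
  rw [ip, CategoryTheory.Functor.map_id, Category.comp_id] at hgp
  rw [im, CategoryTheory.Functor.map_id, Category.comp_id] at hgm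
  exact pullback.hom_ext (hgp.symm.trans (Category.id_comp _).symm)
    (hgm.symm.trans (Category.id_comp _).symm)

theorem aut_eq_id' (φ : CurveChart c ε M) {F : (pullback c (specOver k A)).Modules}
    (hF : Scheme.Modules.IsInvertible F) (a : F ⟶ F)
    (h : (Scheme.Modules.pullback (rigSection c (specOver k A) ε)).map a = 𝟙 _) : a = 𝟙 F := by
  obtain ⟨L, ⟨e⟩⟩ := exists_lineData φ hF
  have := aut_eq_id L (e.inv ≫ a ≫ e.hom) (by
    rw [Functor.map_comp, Functor.map_comp, h, Category.id_comp, ← Functor.map_comp,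
      e.inv_hom_id, CategoryTheory.Functor.map_id])
  rw [← cancel_epi e.inv, ← cancel_mono e.hom, Category.assoc, Category.comp_id]
  rw [this, e.inv_hom_id]

theorem map_eq_id_of_iso {𝒞 𝒟 : Type*} [Category 𝒞] [Category 𝒟] {P Q : 𝒞 ⥤ 𝒟} (η : P ≅ Q)
    {X : 𝒞} {f : X ⟶ X} (h : Q.map f = 𝟙 _) : P.map f = 𝟙 _ := by
  rw [← cancel_mono (η.hom.app X), η.hom.naturality, h, Category.comp_id, Category.id_comp]

theorem rigidAut_of_chart (φ : CurveChart c ε M) : RigidAut c ε := by
  intro T t Mb a ha
  apply Scheme.Modules.hom_ext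
  intro U
  ext x
  let ι := {p : Σ (R : CommRingCat.{u}), Spec R ⟶ T // IsOpenImmersion p.2}
  have hloc : ∀ (p : ι) (V : (pullback c t).Opens),
      (V : Set ↥(pullback c t)) ⊆ (pullback.snd c t).base ⁻¹' Set.range p.1.2.base →
      ∀ y : Γ(Mb.L, V), a.hom.app V y = y := by
    rintro ⟨⟨R, g⟩, hg⟩ V hV y
    obtain ⟨s, hs⟩ := Spec.map_surjective (g ≫ t)
    let : Algebra k R := s.hom.toAlgebra
    let ψ : SchemeHomOver (specOver k R) t := ⟨g, hs.symm⟩
    have : IsOpenImmersion ψ.1 := hg
    let G := baseChangeSnd c ψ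
    have : IsOpenImmersion G := by unfold G baseChangeSnd; infer_instance
    have h1 : (Scheme.Modules.pullback (rigSection c (specOver k R) ε)).map
        ((Scheme.Modules.pullback G).map a.hom) = 𝟙 _ := by
      have hQ : (Scheme.Modules.pullback (rigSection c t ε) ⋙ Scheme.Modules.pullback ψ.1).map
          a.hom = 𝟙 _ := by
        rw [Functor.comp_map, ha, CategoryTheory.Functor.map_id]
        rfl
      exact map_eq_id_of_iso (Scheme.Modules.pullbackComp (rigSection c (specOver k R) ε) G ≪≫
        Scheme.Modules.pullbackCongr (rigSection_baseChangeSnd c ε ψ) ≪≫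
        (Scheme.Modules.pullbackComp ψ.1 (rigSection c t ε)).symm) hQ
    have h2 := aut_eq_id' φ (Mb.isInvertible.pullback G) _ h1
    have h3 : (Scheme.Modules.restrictFunctor G).map a.hom = 𝟙 _ :=
      map_eq_id_of_iso (Scheme.Modules.restrictFunctorIsoPullback G) h2
    have hr : V ≤ G.opensRange := by
      intro z hz
      show z ∈ Set.range G.base
      unfold G baseChangeSnd
      rw [Scheme.Pullback.range_map]
      exact ⟨⟨_, rfl⟩, hV hz⟩
    obtain ⟨W, rfl⟩ := exists_image_eq hr
    exact congr(($h3).app W y)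
  let Vc : ι → (pullback c t).Opens := fun p =>
    U ⊓ ⟨(pullback.snd c t).base ⁻¹' Set.range p.1.2.base,
      ((haveI := p.2; p.1.2.isOpenEmbedding.isOpen_range)).preimage
        (pullback.snd c t).continuous⟩
  refine TopCat.Sheaf.eq_of_locally_eq' ⟨_, Mb.L.isSheaf⟩ Vc U (fun p => homOfLE inf_le_left)
    (fun z hz => ?_) _ _ fun p => ?_
  · obtain ⟨R, f, hf, hp, -⟩ := Scheme.exists_affine_mem_range_and_range_subset
      (x := (pullback.snd c t).base z) (U := (⊤ : T.Opens)) trivial
    exact Opens.mem_iSup.2 ⟨⟨⟨R, f⟩, hf⟩, hz, hp⟩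
  · have hn := congr($(a.hom.mapPresheaf.naturality
      (homOfLE (inf_le_left : Vc p ≤ U)).op) x)
    refine Eq.trans hn.symm ?_
    exact hloc p (Vc p) (fun z hz => hz.2) _

end FLTAgent.Jac.Dict
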