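import Fermat.Agent.Jac.Dict.Sheaf

/-!
# S25: every invertible sheaf on `C × Spec A` comes from line bundle data
-/

set_option autoImplicit false

universe u

open CategoryTheory CategoryTheory.Limits AlgebraicGeometry AlgebraicGeometry.RelPicard
  NeronModelInfra TensorProduct TopologicalSpace

namespace FLTAgent.Jac.Dict

/-- An invertible sheaf on an open affine is the sheaf of an invertible module. -/
theorem exists_univ_tM {X : Scheme.{u}} {R : CommRingCat.{u}} (j : Spec R ⟶ X) [IsOpenImmersion j]
    {F : X.Modules} (hF : Scheme.Modules.IsInvertible F) :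
    ∃ (P : ModuleCat.{u} R) (q : F ⟶ (Scheme.Modules.pushforward j).obj (tilde P)),
      Module.Invertible R P ∧ IsUniv j q := by
  have := isQuasicoherent_of_isInvertible (isInvertible_restrict j hF)
  let G : (Spec R).Modules := F.restrict j
  let P : ModuleCat.{u} R := (modulesSpecToSheaf.obj G).presheaf.obj (.op ⊤)
  have h : IsIso G.fromTildeΓ := inferInstance
  let e : tilde P ≅ G := @asIso _ _ _ _ G.fromTildeΓ h
  refine ⟨P, (Scheme.Modules.restrictAdjunction j).unit.app F ≫
      (Scheme.Modules.pushforward j).map e.inv, ?_, (isUniv_unit j F).comp_map e.inv⟩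
  exact invertible_of_tM (R := R) (M := (P : Type u))
    (isInvertible_of_iso e.symm (isInvertible_restrict j hF))

/-- An element that is regular on the ring is regular on an invertible module. -/
theorem eq_zero_of_regular {R : Type u} [CommRing R] {P : Type u} [AddCommGroup P] [Module R P]
    [Module.Invertible R P] {x : R} (hx : IsSMulRegular R x) {m : P} {n : ℕ}
    (h : x ^ n • m = 0) : m = 0 :=
  by
  have hr : IsSMulRegular P x := fun a b e => by
    have hinj := Module.Flat.lTensor_preserves_injective_linearMap (M := P)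
      (LinearMap.lsmul R R x) hx
    refine (TensorProduct.rid R P).symm.injective (hinj ?_)
    simp only [TensorProduct.rid_symm_apply, LinearMap.lTensor_tmul, LinearMap.lsmul_apply]
    rw [TensorProduct.tmul_smul, TensorProduct.tmul_smul, TensorProduct.smul_tmul',
      TensorProduct.smul_tmul']
    exact congrArg (· ⊗ₜ[R] (1 : R)) e
  exact (hr.pow n).right_eq_zero_of_smul h

theorem isSMulRegular_xP {k : Type u} [Field k] (M : Model k) (A : Type u) [CommRing A]
    [Algebra k A] : IsSMulRegular (M.Ap A) (xP M A) := by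
  intro a b h
  refine Module.Flat.lTensor_preserves_injective_linearMap M.ip.toLinearMap M.ip_inj ?_
  show M.ipA A a = M.ipA A b
  have := congrArg (M.ipA A) h
  simp only [smul_eq_mul, map_mul, ipA_xP] at this
  exact (Units.mul_right_inj _).1 this

theorem isSMulRegular_yM {k : Type u} [Field k] (M : Model k) (A : Type u) [CommRing A]
    [Algebra k A] : IsSMulRegular (M.Am A) (yM M A) :=
  isSMulRegular_xP M.swap A

variable {k : Type u} [Field k] {C : Scheme.{u}} {c : C ⟶ Spec (CommRingCat.of k)}
  {ε : SchemeHomOver (𝟙 (Spec (CommRingCat.of k))) c} {M : Model k}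
  (φ : CurveChart c ε M) {A : Type u} [CommRing A] [Algebra k A]

theorem exists_lineData {F : (pullback c (specOver k A)).Modules}
    (hF : Scheme.Modules.IsInvertible F) :
    ∃ L : LineData M A, Nonempty (F ≅ sheafOf φ L) := by
  obtain ⟨P, qp, hP, hp⟩ := exists_univ_tM (φ.jpA A) hF
  obtain ⟨Q, qm, hQ, hm⟩ := exists_univ_tM (φ.jmA A) hF
  obtain ⟨N, qn, hN, hn⟩ := exists_univ_tM (joA φ A) hF
  obtain ⟨tp', htp⟩ := (pcomp_injective (H := tilde N) (fp_comp φ A) hp).2 qn
  obtain ⟨tm', htm⟩ := (pcomp_injective (H := tilde N) (fm_comp φ A) hm).2 qn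
  obtain ⟨ρp, rfl⟩ := exists_eq_toPush (fp M A) (M := (P : Type u)) (N := (N : Type u)) tp'
  obtain ⟨ρm, rfl⟩ := exists_eq_toPush (fm M A) (M := (Q : Type u)) (N := (N : Type u)) tm'
  have lp := (isUniv_toPush_iff (fp M A) (xP M A) (isUnit_fp A) (opensRange_fp A) ρp).1
    (isUniv_of_pcomp hp (fp_comp φ A) (htp ▸ hn))
  have lm := (isUniv_toPush_iff (fm M A) (yM M A) (isUnit_fm A) (opensRange_fm A) ρm).1
    (isUniv_of_pcomp hm (fm_comp φ A) (htm ▸ hn))
  let : Module A (P : Type u) := Module.compHom (P : Type u) (algebraMap A (M.Ap A))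
  let : Module A (Q : Type u) := Module.compHom (Q : Type u) (algebraMap A (M.Am A))
  let : Module A (N : Type u) := Module.compHom (N : Type u) (algebraMap A (M.Apm A))
  have : IsScalarTower A (M.Ap A) (P : Type u) := .of_algebraMap_smul fun _ _ => rfl
  have : IsScalarTower A (M.Am A) (Q : Type u) := .of_algebraMap_smul fun _ _ => rfl
  have : IsScalarTower A (M.Apm A) (N : Type u) := .of_algebraMap_smul fun _ _ => rfl
  have : Module.Invertible (M.Ap A) (P : Type u) := hP
  have : Module.Invertible (M.Am A) (Q : Type u) := hQ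
  have : Module.Invertible (M.Apm A) (N : Type u) := hN
  let L : LineData M A :=
    { Mp := P
      Mm := Q
      N := N
      ρp := ρp
      ρm := ρm
      ρp_inj := by
        rw [injective_iff_map_eq_zero]
        intro m hm
        obtain ⟨n, hn⟩ := lp.1 m hm
        exact eq_zero_of_regular (isSMulRegular_xP M A) hn
      ρm_inj := by
        rw [injective_iff_map_eq_zero]
        intro m hm
        obtain ⟨n, hn⟩ := lm.1 m hm
        exact eq_zero_of_regular (isSMulRegular_yM M A) hn
      ρp_surj := fun y => by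
        obtain ⟨i, m, h⟩ := lp.2 y
        exact ⟨i, m, by rw [← ipA_xP]; exact h⟩
      ρm_surj := fun y => by
        obtain ⟨i, m, h⟩ := lm.2 y
        exact ⟨i, m, by rw [← imA_yM]; exact h⟩ }
  exact ⟨L, nonempty_iso_sheafOf (L := L) (qp := qp) (qm := qm) hp hm (htp.trans htm.symm)⟩

end FLTAgent.Jac.Dict
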