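import Fermat.Agent.Jac.Dict.Sheaf

/-!
# S25: the structure sheaf is the sheaf of the trivial data
-/

set_option autoImplicit false

universe u

open CategoryTheory CategoryTheory.Limits AlgebraicGeometry AlgebraicGeometry.RelPicard
  NeronModelInfra TensorProduct TopologicalSpace

namespace FLTAgent.Jac.Dict

/-- The structure sheaf as a sheaf of modules. -/
noncomputable abbrev uX (X : Scheme.{u}) : X.Modules := SheafOfModules.unit X.ringCatSheaf

/-- A morphism out of the structure sheaf is determined by the image of `1`. -/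
theorem unit_hom_ext {X : Scheme.{u}} {G : X.Modules}
    {g h : uX X ⟶ G}
    (e : g.app ⊤ (1 : Γ(X, ⊤)) = h.app ⊤ (1 : Γ(X, ⊤))) : g = h := by
  ext U x
  have key : ∀ a : uX X ⟶ G,
      a.app U x = (show Γ(X, U) from x) •
        G.presheaf.map (homOfLE (le_top : U ≤ ⊤)).op (a.app ⊤ (1 : Γ(X, ⊤))) := fun a => by
    have h1 := congr($(a.mapPresheaf.naturality (homOfLE (le_top : U ≤ ⊤)).op) (1 : Γ(X, ⊤)))
    have h2 : a.app U ((show Γ(X, U) from x) •
        (show Γ(uX X, U) from
          X.presheaf.map (homOfLE (le_top : U ≤ ⊤)).op (1 : Γ(X, ⊤)))) = a.app U x := by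
      congr 1
      show (show Γ(X, U) from x) * _ = x
      rw [map_one, mul_one]
    rw [← h2, Scheme.Modules.Hom.app_smul]
    congr 1
  rw [key g, key h, e]

section

variable {X : Scheme.{u}} {R : CommRingCat.{u}} (j : Spec R ⟶ X) [IsOpenImmersion j]

/-- The structure sheaf to the pushforward of the structure sheaf of an affine open. -/
noncomputable def unitTo :
    uX X ⟶ (Scheme.Modules.pushforward j).obj (tM R R) :=
  (Scheme.Modules.restrictAdjunction j).unit.app _ ≫
    (Scheme.Modules.pushforward j).map ((Scheme.Modules.restrictUnitIso j).hom ≫ tildeSelf.inv)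

theorem isUniv_unitTo : IsUniv j (unitTo j) :=
  (isUniv_unit j _).comp_map _

theorem tp_one : tp R R (1 : R) = (1 : Γ(Spec R, ⊤)) := by
  apply Subtype.ext
  funext y
  exact map_one (algebraMap R _)

theorem unitTo_one : (unitTo j).app ⊤ (1 : Γ(X, ⊤)) = tp R R (1 : R) := by
  rw [tp_one]
  show (j.appIso _).hom (X.presheaf.map _ (1 : Γ(X, ⊤))) = (1 : Γ(Spec R, ⊤))
  rw [map_one]
  exact map_one _

theorem pcomp_unitTo_one {S : CommRingCat.{u}} (f : R ⟶ S) {jι : Spec S ⟶ X}
    (h : Spec.map f ≫ j = jι) (ρ : R →ₛₗ[f.hom] S) :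
    (pcomp h (unitTo j) (toPush f ρ)).app ⊤ (1 : Γ(X, ⊤)) = tp S S (ρ 1) := by
  subst h
  rw [pcomp_app]
  show (toPush f ρ).app ⊤ ((unitTo j).app ⊤ (1 : Γ(X, ⊤))) = _
  rw [unitTo_one]
  exact toPush_app f ρ 1

end

variable {k : Type u} [Field k] {C : Scheme.{u}} {c : C ⟶ Spec (CommRingCat.of k)}
  {ε : SchemeHomOver (𝟙 (Spec (CommRingCat.of k))) c} {M : Model k}
  (φ : CurveChart c ε M) {A : Type u} [CommRing A] [Algebra k A]

theorem unit_iso_sheafOf :
    Nonempty (uX (pullback c (specOver k A)) ≅ sheafOf φ (LineData.unit M A)) := by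
  refine nonempty_iso_sheafOf (L := LineData.unit M A)
    (qp := unitTo (R := CommRingCat.of (M.Ap A)) (φ.jpA A))
    (qm := unitTo (R := CommRingCat.of (M.Am A)) (φ.jmA A))
    (isUniv_unitTo _) (isUniv_unitTo _) (unit_hom_ext ?_)
  refine (pcomp_unitTo_one (R := CommRingCat.of (M.Ap A)) (φ.jpA A) (fp M A) (fp_comp φ A)
    (LineData.unit M A).ρp).trans (Eq.trans ?_ (pcomp_unitTo_one (R := CommRingCat.of (M.Am A))
      (φ.jmA A) (fm M A) (fm_comp φ A) (LineData.unit M A).ρm).symm)
  congr 1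
  exact (map_one (M.ipA A)).trans (map_one (M.imA A)).symm

end FLTAgent.Jac.Dict
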