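import Fermat.Agent.Jac.Geom

/-!
# S25: the two charts of `C × Spec A` and their overlap
-/

set_option autoImplicit false
set_option linter.style.haveILetI false

universe u

open CategoryTheory CategoryTheory.Limits AlgebraicGeometry AlgebraicGeometry.RelPicard
  NeronModelInfra TensorProduct

namespace FLTAgent.Jac.Dict

section Chart

variable {k : Type u} [Field k] {C : Scheme.{u}} {c : C ⟶ Spec (CommRingCat.of k)}
  {S : Type u} [CommRing S] [Algebra k S] {j : Spec (CommRingCat.of S) ⟶ C}
  (hj : j ≫ c = Spec.map (CommRingCat.ofHom (algebraMap k S)))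
  (A : Type u) [CommRing A] [Algebra k A]

/-- The base change of a chart. -/
noncomputable def chartA : Spec (CommRingCat.of (A ⊗[k] S)) ⟶ pullback c (specOver k A) :=
  pullback.lift
    (Spec.map (CommRingCat.ofHom
      (Algebra.TensorProduct.includeRight (R := k) (A := A) (B := S)).toRingHom) ≫ j)
    (Spec.map (CommRingCat.ofHom (algebraMap A (A ⊗[k] S))))
    (by
      rw [Category.assoc, hj, specOver, ← Spec.map_comp, ← Spec.map_comp]
      congr 1
      ext r
      exact ((Algebra.TensorProduct.includeRight (R := k) (A := A) (B := S)).commutes r).trans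
        (IsScalarTower.algebraMap_apply k A (A ⊗[k] S) r))

theorem chartA_fst : chartA hj A ≫ pullback.fst _ _ =
    Spec.map (CommRingCat.ofHom
      (Algebra.TensorProduct.includeRight (R := k) (A := A) (B := S)).toRingHom) ≫ j :=
  pullback.lift_fst _ _ _

theorem chartA_snd : chartA hj A ≫ pullback.snd _ _ =
    Spec.map (CommRingCat.ofHom (algebraMap A (A ⊗[k] S))) :=
  pullback.lift_snd _ _ _

theorem isPullback_chartA :
    IsPullback (chartA hj A) (Spec.map (CommRingCat.ofHom
      (Algebra.TensorProduct.includeRight (R := k) (A := A) (B := S)).toRingHom))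
      (pullback.fst c (specOver k A)) j := by
  have o := isPullback_SpecMap_of_isPushout _ _ _ _ (CommRingCat.isPushout_tensorProduct k A S)
  have o' : IsPullback (chartA hj A ≫ pullback.snd _ _)
      (Spec.map (CommRingCat.ofHom
        (Algebra.TensorProduct.includeRight (R := k) (A := A) (B := S)).toRingHom))
      (specOver k A) (j ≫ c) := by
    rw [chartA_snd, hj]
    exact o
  exact o'.of_right (chartA_fst hj A) (IsPullback.of_hasPullback c (specOver k A)).flip

theorem isOpenImmersion_chartA [IsOpenImmersion j] : IsOpenImmersion (chartA hj A) :=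
  MorphismProperty.of_isPullback (isPullback_chartA hj A).flip ‹IsOpenImmersion j›

theorem range_chartA [IsOpenImmersion j] :
    Set.range (chartA hj A).base = (pullback.fst c (specOver k A)).base ⁻¹' Set.range j.base := by
  have h := isPullback_chartA hj A
  have e : chartA hj A = h.isoPullback.hom ≫ pullback.fst (pullback.fst c (specOver k A)) j :=
    h.isoPullback_hom_fst.symm
  rw [e, Scheme.Hom.comp_base, TopCat.coe_comp, Set.range_comp,
    Set.range_eq_univ.mpr h.isoPullback.hom.surjective, Set.image_univ,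
    IsOpenImmersion.range_pullbackFst]
  rfl

end Chart

section Overlap

variable {k : Type u} [Field k] {C : Scheme.{u}} {c : C ⟶ Spec (CommRingCat.of k)}
  {ε : SchemeHomOver (𝟙 (Spec (CommRingCat.of k))) c} {M : Model k}
  (φ : CurveChart c ε M) (A : Type u) [CommRing A] [Algebra k A]

/-- The overlap chart of `C`. -/
noncomputable abbrev jo : Spec (CommRingCat.of M.Rpm) ⟶ C :=
  Spec.map (CommRingCat.ofHom M.ip.toRingHom) ≫ φ.jp

instance isOpenImmersion_jo : IsOpenImmersion (jo φ) :=
  haveI : IsOpenImmersion (Spec.map (CommRingCat.ofHom M.ip.toRingHom)) :=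
    MorphismProperty.of_isPullback φ.overlap.flip φ.jm_open
  inferInstance

theorem jo_over : jo φ ≫ c = Spec.map (CommRingCat.ofHom (algebraMap k M.Rpm)) := by
  rw [Category.assoc, φ.jp_over, ← Spec.map_comp]
  congr 1
  ext r
  exact M.ip.commutes r

/-- The overlap chart of `C × Spec A`. -/
noncomputable def joA : Spec (CommRingCat.of (M.Apm A)) ⟶ pullback c (specOver k A) :=
  chartA (jo_over φ) A

/-- The inclusion of the overlap in the first chart. -/
noncomputable abbrev fp (M : Model k) (A : Type u) [CommRing A] [Algebra k A] :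
    CommRingCat.of (M.Ap A) ⟶ CommRingCat.of (M.Apm A) :=
  CommRingCat.ofHom (M.ipA A).toRingHom

/-- The inclusion of the overlap in the second chart. -/
noncomputable abbrev fm (M : Model k) (A : Type u) [CommRing A] [Algebra k A] :
    CommRingCat.of (M.Am A) ⟶ CommRingCat.of (M.Apm A) :=
  CommRingCat.ofHom (M.imA A).toRingHom

theorem fp_comp : Spec.map (fp M A) ≫ φ.jpA A = joA φ A := by
  apply pullback.hom_ext
  · rw [joA, chartA_fst, Category.assoc, CurveChart.jpA, pullback.lift_fst, ← Category.assoc,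
      ← Category.assoc, ← Spec.map_comp, ← Spec.map_comp]
    congr 2
  · rw [joA, chartA_snd, Category.assoc, CurveChart.jpA, pullback.lift_snd, ← Spec.map_comp]
    congr 1
    ext r
    exact (M.ipA A).commutes r

theorem fm_comp : Spec.map (fm M A) ≫ φ.jmA A = joA φ A := by
  apply pullback.hom_ext
  · rw [joA, chartA_fst, jo, φ.overlap.w, Category.assoc, CurveChart.jmA, pullback.lift_fst,
      ← Category.assoc, ← Category.assoc, ← Spec.map_comp, ← Spec.map_comp]
    congr 2
  · rw [joA, chartA_snd, Category.assoc, CurveChart.jmA, pullback.lift_snd, ← Spec.map_comp]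
    congr 1
    ext r
    exact (M.imA A).commutes r

instance isOpenImmersion_jpA : IsOpenImmersion (φ.jpA A) :=
  isOpenImmersion_chartA φ.jp_over A

instance isOpenImmersion_jmA : IsOpenImmersion (φ.jmA A) :=
  isOpenImmersion_chartA φ.jm_over A

theorem range_jpA :
    Set.range (φ.jpA A).base =
      (pullback.fst c (specOver k A)).base ⁻¹' Set.range φ.jp.base :=
  range_chartA φ.jp_over A

theorem range_jmA :
    Set.range (φ.jmA A).base =
      (pullback.fst c (specOver k A)).base ⁻¹' Set.range φ.jm.base :=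
  range_chartA φ.jm_over A

theorem cover_A (p : ↥(pullback c (specOver k A))) :
    p ∈ (φ.jpA A).opensRange ∨ p ∈ (φ.jmA A).opensRange := by
  show p ∈ Set.range (φ.jpA A).base ∨ p ∈ Set.range (φ.jmA A).base
  rw [range_jpA, range_jmA]
  exact φ.cover _

/-- The coordinate on the first chart. -/
noncomputable abbrev xP (M : Model k) (A : Type u) [CommRing A] [Algebra k A] : M.Ap A :=
  (1 : A) ⊗ₜ[k] M.x

/-- The coordinate on the second chart. -/
noncomputable abbrev yM (M : Model k) (A : Type u) [CommRing A] [Algebra k A] : M.Am A :=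
  (1 : A) ⊗ₜ[k] M.y

theorem ipA_xP : M.ipA A (xP M A) = (M.xU A : M.Apm A) := by
  simp [Model.ipA, Model.xU, xP]

theorem imA_yM : M.imA A (yM M A) = (↑(M.xU A)⁻¹ : M.Apm A) := by
  simp [Model.imA, Model.xU, yM]

theorem isUnit_fp : IsUnit (fp M A (xP M A)) := by
  show IsUnit (M.ipA A (xP M A))
  rw [ipA_xP]
  exact Units.isUnit _

theorem isUnit_fm : IsUnit (fm M A (yM M A)) := by
  show IsUnit (M.imA A (yM M A))
  rw [imA_yM]
  exact Units.isUnit _

theorem isLocalization_Apm (M : Model k) :
    letI := (M.ipA A).toRingHom.toAlgebra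
    IsLocalization.Away (xP M A) (M.Apm A) := by
  letI := (M.ipA A).toRingHom.toAlgebra
  refine (isLocalization_iff (Submonoid.powers (xP M A)) (M.Apm A)).2
    ⟨?_, fun n => ?_, fun {a b} h => ?_⟩
  · rintro ⟨_, n, rfl⟩
    show IsUnit (M.ipA A (xP M A ^ n))
    rw [map_pow, ipA_xP]
    exact (Units.isUnit _).pow n
  · obtain ⟨i, m, hm⟩ := LineData.exists_ipA_eq n
    refine ⟨⟨m, ⟨_, i, rfl⟩⟩, ?_⟩
    show n * M.ipA A (xP M A ^ i) = M.ipA A m
    rw [map_pow, ipA_xP, mul_comm, hm]
  · exact ⟨1, by
      rw [show a = b from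
        Module.Flat.lTensor_preserves_injective_linearMap M.ip.toLinearMap M.ip_inj h]⟩

instance isOpenImmersion_fp : IsOpenImmersion (Spec.map (fp M A)) :=
  letI := (M.ipA A).toRingHom.toAlgebra
  haveI := isLocalization_Apm A M
  IsOpenImmersion.of_isLocalization (S := M.Apm A) (xP M A)

instance isOpenImmersion_fm : IsOpenImmersion (Spec.map (fm M A)) :=
  isOpenImmersion_fp (M := M.swap) A

theorem opensRange_fp :
    (Spec.map (fp M A)).opensRange = PrimeSpectrum.basicOpen (xP M A) := by
  letI := (M.ipA A).toRingHom.toAlgebra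
  haveI := isLocalization_Apm A M
  exact TopologicalSpace.Opens.ext
    (PrimeSpectrum.localization_away_comap_range (M.Apm A) (xP M A))

theorem opensRange_fm :
    (Spec.map (fm M A)).opensRange = PrimeSpectrum.basicOpen (yM M A) :=
  opensRange_fp (M := M.swap) A

instance isOpenImmersion_joA : IsOpenImmersion (joA φ A) := by
  rw [← fp_comp]
  infer_instance

theorem exists_of_isPullback {P X Y Z : Scheme.{u}} {p : P ⟶ X} {q : P ⟶ Y} {f : X ⟶ Z} {g : Y ⟶ Z}
    (h : IsPullback p q f g) (x : X) (y : Y) (e : f.base x = g.base y) :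
    ∃ z, p.base z = x ∧ q.base z = y := by
  obtain ⟨z, hz, hz'⟩ := Scheme.Pullback.exists_preimage_pullback (f := f) (g := g) x y e
  refine ⟨h.isoPullback.inv z, ?_, ?_⟩
  · rw [← Scheme.Hom.comp_apply, h.isoPullback_inv_fst, hz]
  · rw [← Scheme.Hom.comp_apply, h.isoPullback_inv_snd, hz']

/-- Points of the second chart lying in the first come from the overlap. -/
theorem mem_overlap {p : ↥(Spec (CommRingCat.of (M.Am A)))}
    (h : (φ.jmA A).base p ∈ (φ.jpA A).opensRange) : p ∈ (Spec.map (fm M A)).opensRange := by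
  have hp : (pullback.fst c (specOver k A)).base ((φ.jmA A).base p) ∈ Set.range φ.jp.base := by
    have : (φ.jmA A).base p ∈ Set.range (φ.jpA A).base := h
    rwa [range_jpA] at this
  obtain ⟨a, ha⟩ := hp
  have hm : (φ.jmA A).base p ∈ Set.range (φ.jmA A).base := ⟨p, rfl⟩
  rw [range_jmA] at hm
  obtain ⟨b, hb⟩ := hm
  obtain ⟨z, hz, -⟩ := exists_of_isPullback φ.overlap a b
    (ha.trans hb.symm)
  have : (φ.jmA A).base p ∈ Set.range (joA φ A).base := by
    rw [joA, range_chartA]
    refine ⟨z, ?_⟩
    rw [jo, Scheme.Hom.comp_apply, hz]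
    exact ha
  obtain ⟨q, hq⟩ := this
  rw [← fm_comp, Scheme.Hom.comp_apply] at hq
  exact ⟨q, (φ.jmA A).isOpenEmbedding.injective hq⟩

/-- Points of the first chart lying in the second come from the overlap. -/
theorem mem_overlap' {p : ↥(Spec (CommRingCat.of (M.Ap A)))}
    (h : (φ.jpA A).base p ∈ (φ.jmA A).opensRange) : p ∈ (Spec.map (fp M A)).opensRange := by
  have hm : (φ.jpA A).base p ∈ Set.range (φ.jmA A).base := h
  rw [range_jmA] at hm
  obtain ⟨b, hb⟩ := hm
  have hp : (φ.jpA A).base p ∈ Set.range (φ.jpA A).base := ⟨p, rfl⟩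
  rw [range_jpA] at hp
  obtain ⟨a, ha⟩ := hp
  obtain ⟨z, hz, -⟩ := exists_of_isPullback φ.overlap a b (ha.trans hb.symm)
  have : (φ.jpA A).base p ∈ Set.range (joA φ A).base := by
    rw [joA, range_chartA]
    refine ⟨z, ?_⟩
    rw [jo, Scheme.Hom.comp_apply, hz]
    exact ha
  obtain ⟨q, hq⟩ := this
  rw [← fp_comp, Scheme.Hom.comp_apply] at hq
  exact ⟨q, (φ.jpA A).isOpenEmbedding.injective hq⟩

end Overlap

end FLTAgent.Jac.Dict
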