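import Mathlib

/-!
# S25: modules that are locally free of rank one are invertible
-/

set_option autoImplicit false

universe u

open TensorProduct

namespace FLTAgent.Jac.Dict

variable {R : Type u} [CommRing R] {M : Type u} [AddCommGroup M] [Module R M]

/-- Local generators in a module that is free of rank one away from `g`. -/
theorem exists_local_generator (g : R)
    (e : LocalizedModule.Away g M ≃ₗ[Localization.Away g] Localization.Away g) :
    ∃ (e₀ : M) (i : ℕ), e (LocalizedModule.mkLinearMap _ M e₀) = algebraMap R _ (g ^ i) ∧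
      ∀ m : M, ∃ (n : ℕ) (a : R), g ^ n • m = a • e₀ := by
  obtain ⟨⟨e₀, ⟨_, i, rfl⟩⟩, h₀⟩ := IsLocalizedModule.surj (.powers g)
    (LocalizedModule.mkLinearMap (.powers g) M) (e.symm 1)
  replace h₀ : g ^ i • e.symm 1 = LocalizedModule.mkLinearMap _ M e₀ := h₀
  have he₀ : e (LocalizedModule.mkLinearMap _ M e₀) = algebraMap R _ (g ^ i) := by
    rw [← h₀, ← algebraMap_smul (Localization.Away g) (g ^ i) (e.symm 1), map_smul,
      LinearEquiv.apply_symm_apply, smul_eq_mul, mul_one]
  refine ⟨e₀, i, he₀, fun m => ?_⟩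
  obtain ⟨⟨a, ⟨_, l, rfl⟩⟩, ha⟩ := IsLocalization.surj (Submonoid.powers g)
    (e (LocalizedModule.mkLinearMap _ M m))
  have h2 : LocalizedModule.mkLinearMap (.powers g) M (g ^ (i + l) • m) =
      LocalizedModule.mkLinearMap (.powers g) M (a • e₀) := by
    apply (e.restrictScalars R).injective
    rw [map_smul, map_smul, map_smul, map_smul, LinearEquiv.restrictScalars_apply,
      LinearEquiv.restrictScalars_apply, he₀, Algebra.smul_def, Algebra.smul_def, pow_add, map_mul,
      ← ha]
    ring
  obtain ⟨⟨_, q, rfl⟩, hq⟩ := (IsLocalizedModule.eq_iff_exists (.powers g)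
    (LocalizedModule.mkLinearMap (.powers g) M)).1 h2
  refine ⟨q + (i + l), g ^ q * a, ?_⟩
  rw [pow_add, mul_smul, mul_smul]
  exact hq

/-- A module locally free of rank one is invertible. -/
theorem invertible_of_local
    (h : ∀ p : PrimeSpectrum R, ∃ g : R, g ∉ p.asIdeal ∧
      Nonempty (LocalizedModule.Away g M ≃ₗ[Localization.Away g] Localization.Away g)) :
    Module.Invertible R M := by
  choose g hg e using h
  replace e := fun p => (e p).some
  have hs : Ideal.span (Set.range g) = ⊤ := by
    by_contra hne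
    obtain ⟨m, hm, hle⟩ := Ideal.exists_le_maximal _ hne
    exact hg ⟨m, hm.isPrime⟩ (hle (Ideal.subset_span ⟨_, rfl⟩))
  choose e₀ i he₀ gen using fun p => exists_local_generator (g p) (e p)
  have : Module.FinitePresentation R M :=
    Module.FinitePresentation.of_localizationSpan (Set.range g) hs fun ⟨_, p, hp⟩ => by
      subst hp
      exact Module.finitePresentation_of_surjective (e p).symm.toLinearMap (e p).symm.surjective
        (by rw [LinearMap.ker_eq_bot.2 (e p).symm.injective]; exact Submodule.fg_bot)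
  have hzero : ∀ z : M, (∀ p, ∃ n : ℕ, g p ^ n • z = 0) → z = 0 := fun z hz => by
    by_contra hne
    obtain ⟨m, hm, hle⟩ := Ideal.exists_le_maximal (Module.annihilator R (R ∙ z)) (by
      intro htop
      refine hne ?_
      have := Module.mem_annihilator.1 (htop ▸ Submodule.mem_top : (1 : R) ∈ _)
        ⟨z, Submodule.mem_span_singleton_self z⟩
      simpa using congrArg Subtype.val this)
    obtain ⟨n, hn⟩ := hz ⟨m, hm.isPrime⟩
    refine hg ⟨m, hm.isPrime⟩ (hm.isPrime.mem_of_pow_mem n (hle ?_))
    rw [Module.mem_annihilator]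
    rintro ⟨y, hy⟩
    obtain ⟨r, rfl⟩ := Submodule.mem_span_singleton.1 hy
    ext
    show g ⟨m, hm.isPrime⟩ ^ n • r • z = 0
    rw [smul_comm, hn, smul_zero]
  have hcomm : ∀ (ψ : Module.Dual R M) (m n : M), ψ m • n = ψ n • m := fun ψ m n => by
    refine sub_eq_zero.1 (hzero _ fun p => ?_)
    obtain ⟨a, x, hx⟩ := gen p m
    obtain ⟨b, y, hy⟩ := gen p n
    refine ⟨a + b, ?_⟩
    calc g p ^ (a + b) • (ψ m • n - ψ n • m)
        = ψ (g p ^ a • m) • (g p ^ b • n) - ψ (g p ^ b • n) • (g p ^ a • m) := by
          simp only [map_smul, smul_eq_mul, smul_sub, smul_smul, pow_add]; ring_nf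
      _ = 0 := by
          rw [hx, hy]; simp only [map_smul, smul_eq_mul, smul_smul]; ring_nf; simp
  have hdual : ∀ p, ∃ (φ : Module.Dual R M) (q : ℕ), φ (e₀ p) = g p ^ q := fun p => by
    let f : M →ₗ[R] Localization.Away (g p) :=
      ((e p).toLinearMap.restrictScalars R).comp (LocalizedModule.mkLinearMap _ M)
    obtain ⟨φ, ⟨_, j, rfl⟩, hφ⟩ := Module.FinitePresentation.exists_lift_of_isLocalizedModule
      (Submonoid.powers (g p)) (Algebra.linearMap R (Localization.Away (g p))) f
    have h1 : algebraMap R (Localization.Away (g p)) (φ (e₀ p)) =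
        algebraMap R _ (g p ^ (j + i p)) := by
      have := LinearMap.congr_fun hφ (e₀ p)
      simp only [LinearMap.coe_comp, Function.comp_apply, Algebra.linearMap_apply] at this
      rw [this, pow_add, map_mul]
      show g p ^ j • f (e₀ p) = _
      rw [Algebra.smul_def]
      exact congrArg _ (he₀ p)
    obtain ⟨⟨_, q, rfl⟩, hq⟩ := IsLocalization.exists_of_eq (M := Submonoid.powers (g p)) h1
    exact ⟨g p ^ q • φ, q + (j + i p), by simpa [pow_add] using hq⟩
  choose φ q hφ using hdual
  obtain ⟨t, ht⟩ : ∃ t : Module.Dual R M ⊗[R] M, contractLeft R M t = 1 := by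
    have : LinearMap.range (contractLeft R M) = ⊤ := by
      by_contra hne
      obtain ⟨m, hm, hle⟩ := Ideal.exists_le_maximal _ hne
      refine hg ⟨m, hm.isPrime⟩ (hm.isPrime.mem_of_pow_mem (q ⟨m, hm.isPrime⟩) (hle ?_))
      exact ⟨φ _ ⊗ₜ e₀ _, by rw [contractLeft_apply]; exact hφ _⟩
    exact LinearMap.range_eq_top.1 this 1
  refine ⟨⟨?_, fun r => ⟨r • t, by rw [map_smul, ht, smul_eq_mul, mul_one]⟩⟩⟩
  have key : ∀ s u : Module.Dual R M ⊗[R] M,
      contractLeft R M s • u = contractLeft R M u • s := by
    intro s u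
    induction s using TensorProduct.induction_on with
    | zero => simp
    | add a b ha hb => simp [add_smul, smul_add, ha, hb]
    | tmul ψ n =>
      induction u using TensorProduct.induction_on with
      | zero => simp
      | add a b ha hb => rw [smul_add, ha, hb, map_add, add_smul]
      | tmul χ m =>
        have hd : χ n • ψ = ψ n • χ := LinearMap.ext fun x => by
          simp only [LinearMap.smul_apply, smul_eq_mul]
          have := congrArg χ (hcomm ψ x n)
          simp only [map_smul, smul_eq_mul] at this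
          linear_combination this
        simp only [contractLeft_apply]
        calc ψ n • (χ ⊗ₜ[R] m) = (χ n • ψ) ⊗ₜ[R] m := by rw [hd, smul_tmul']
          _ = ψ ⊗ₜ[R] (χ n • m) := by rw [smul_tmul]
          _ = ψ ⊗ₜ[R] (χ m • n) := by rw [hcomm χ n m]
          _ = χ m • (ψ ⊗ₜ[R] n) := by rw [tmul_smul]
  intro a b hab
  have ha := key t a
  have hb := key t b
  rw [ht, one_smul] at ha hb
  rw [ha, hb, hab]

end FLTAgent.Jac.Dict
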