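import Fermat.Agent.Jac.Dict.Univ
import Fermat.Agent.Jac.Dict.InvModule
import Fermat.Prelude.Def_AlgebraicGeometry_RelativePicardFunctor

/-!
# S25: invertible sheaves are locally the sheaf of an invertible module
-/

set_option autoImplicit false

universe u

open CategoryTheory AlgebraicGeometry TopologicalSpace Opposite
open scoped AlgebraicGeometry

namespace FLTAgent.Jac.Dict

section General

variable {X Y : Scheme.{u}} {F G : X.Modules}

theorem isInvertible_of_iso (e : F ≅ G) (h : Scheme.Modules.IsInvertible F) :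
    Scheme.Modules.IsInvertible G :=
  ⟨fun x => by
    obtain ⟨U, hU, ⟨a⟩⟩ := h.exists_trivialization x
    exact ⟨U, hU, ⟨(Scheme.Modules.pullback U.ι).mapIso e.symm ≪≫ a⟩⟩⟩

theorem isInvertible_restrict (j : Y ⟶ X) [IsOpenImmersion j] (h : Scheme.Modules.IsInvertible F) :
    Scheme.Modules.IsInvertible (F.restrict j) :=
  isInvertible_of_iso ((Scheme.Modules.restrictFunctorIsoPullback j).app F).symm (h.pullback j)

theorem exists_restrict_unit (h : Scheme.Modules.IsInvertible F) (x : X) :
    ∃ U : X.Opens, x ∈ U ∧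
      Nonempty (F.restrict U.ι ≅ SheafOfModules.unit U.toScheme.ringCatSheaf) := by
  obtain ⟨U, hU, ⟨a⟩⟩ := h.exists_trivialization x
  exact ⟨U, hU, ⟨(Scheme.Modules.restrictFunctorIsoPullback U.ι).app F ≪≫ a⟩⟩

/-- A trivialisation over an open gives one over a smaller open immersion. -/
theorem restrict_unit_of_le {Z : Scheme.{u}} (j : Y ⟶ X) [IsOpenImmersion j] (i : Z ⟶ X)
    [IsOpenImmersion i] (hle : Set.range i.base ⊆ Set.range j.base)
    (a : Nonempty (F.restrict j ≅ SheafOfModules.unit Y.ringCatSheaf)) :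
    Nonempty (F.restrict i ≅ SheafOfModules.unit Z.ringCatSheaf) := by
  obtain ⟨a⟩ := a
  let l := IsOpenImmersion.lift j i hle
  have hl : l ≫ j = i := IsOpenImmersion.lift_fac j i hle
  have : IsOpenImmersion l := by
    have : IsOpenImmersion (l ≫ j) := hl ▸ inferInstance
    exact IsOpenImmersion.of_comp l j
  exact ⟨(Scheme.Modules.restrictFunctorCongr hl.symm).app F ≪≫
    (Scheme.Modules.restrictFunctorComp l j).app F ≪≫
    (Scheme.Modules.restrictFunctor l).mapIso a ≪≫ Scheme.Modules.restrictUnitIso l⟩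

theorem isInvertible_of_local
    (h : ∀ x : X, ∃ (Z : Scheme.{u}) (j : Z ⟶ X) (_ : IsOpenImmersion j), x ∈ Set.range j.base ∧
      Nonempty (F.restrict j ≅ SheafOfModules.unit Z.ringCatSheaf)) :
    Scheme.Modules.IsInvertible F :=
  ⟨fun x => by
    obtain ⟨Z, j, hj, hx, a⟩ := h x
    obtain ⟨b⟩ := restrict_unit_of_le j j.opensRange.ι
      (by rw [Scheme.Opens.range_ι]; exact subset_rfl) a
    exact ⟨j.opensRange, hx,
      ⟨((Scheme.Modules.restrictFunctorIsoPullback _).app F).symm ≪≫ b⟩⟩⟩

/-- Invertible sheaves are quasi-coherent. -/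
theorem isQuasicoherent_of_isInvertible (h : Scheme.Modules.IsInvertible F) :
    F.IsQuasicoherent := by
  choose U hU e using exists_restrict_unit h
  have P : ∀ x, Nonempty (F.over (U x)).Presentation := fun x => by
    let pu : (SheafOfModules.free.{u} (R := (U x).toScheme.ringCatSheaf)
        PUnit.{u + 1}).Presentation :=
      { generators := SheafOfModules.free.generatingSections _
        relations :=
          { I := ULift Empty
            s := fun j => Empty.rec _ j.down
            epi := Limits.IsZero.epi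
              (Limits.IsZero.of_iso (Limits.isZero_zero _) (Limits.kernel.ofMono _)) _ } }
    let e0 : SheafOfModules.free.{u} (R := (U x).toScheme.ringCatSheaf) PUnit.{u + 1} ≅
        F.restrict (U x).ι := Limits.coproductUniqueIso _ ≪≫ (e x).some.symm
    let p1 : (F.restrict (U x).ι).Presentation :=
      @SheafOfModules.Presentation.ofIsIso _ _ _ _ _ _ _ _ e0.hom e0.isIso_hom pu
    let u0 : (Scheme.Modules.overEquiv (U x)).functor.obj (SheafOfModules.unit.{u} _) ≅
        SheafOfModules.unit.{u} (U x).toScheme.ringCatSheaf :=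
      (Scheme.Modules.overFunctorEquiv (U x)).app (SheafOfModules.unit.{u} X.ringCatSheaf) ≪≫
        Scheme.Modules.restrictUnitIso (U x).ι
    let P : SheafOfModules.{u} (U x).toScheme.ringCatSheaf ⥤
        SheafOfModules.{u} (X.ringCatSheaf.over (U x)) := (Scheme.Modules.overEquiv (U x)).inverse
    have : Limits.PreservesColimitsOfSize.{u, u} P :=
      (Scheme.Modules.overEquiv (U x)).symm.toAdjunction.leftAdjoint_preservesColimits
    let e1 : P.obj (SheafOfModules.unit.{u} (U x).toScheme.ringCatSheaf) ≅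
        SheafOfModules.unit.{u} _ :=
      P.mapIso u0.symm ≪≫ ((Scheme.Modules.overEquiv (U x)).unitIso.app _).symm
    let e2 : P.obj (F.restrict (U x).ι) ≅ F.over (U x) :=
      P.mapIso ((Scheme.Modules.overFunctorEquiv (U x)).app F).symm ≪≫
        ((Scheme.Modules.overEquiv (U x)).unitIso.app _).symm
    exact ⟨@SheafOfModules.Presentation.ofIsIso _ _ _ _ _ _ _ _ e2.hom e2.isIso_hom
      (SheafOfModules.Presentation.map.{u, u, u} p1 P e1.symm)⟩
  let F' : SheafOfModules.{u} X.ringCatSheaf := F
  refine SheafOfModules.QuasicoherentData.isQuasicoherent.{u} (M := F') ?_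
  exact
    { I := X
      X := U
      coversTop := by
        rw [Opens.coversTop_iff, IsOpenCover, eq_top_iff]
        exact fun x _ => Opens.mem_iSup.2 ⟨x, hU x⟩
      presentation := fun x => (P x).some }

end General

variable {R S : CommRingCat.{u}}

theorem isIso_of_bijective_top {A B : (Spec R).Modules} [A.IsQuasicoherent] [B.IsQuasicoherent]
    (α : A ⟶ B) (h : Function.Bijective (α.app ⊤)) : IsIso α := by
  have h1 : IsIso ((modulesSpecToSheaf.map α).hom.app (op ⊤)) :=
    (ConcreteCategory.isIso_iff_bijective _).2 h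
  have h2 : IsIso (moduleSpecΓFunctor.map α) := h1
  have h3 : (tilde.functor R).map (moduleSpecΓFunctor.map α) ≫ B.fromTildeΓ =
      A.fromTildeΓ ≫ α :=
    Scheme.Modules.fromTildeΓNatTrans.naturality α
  have hA : IsIso A.fromTildeΓ := inferInstance
  have hB : IsIso B.fromTildeΓ := inferInstance
  have h4 : IsIso ((tilde.functor R).map (moduleSpecΓFunctor.map α)) := inferInstance
  have : IsIso (A.fromTildeΓ ≫ α) := h3 ▸ @IsIso.comp_isIso _ _ _ _ _ _ _ h4 hB
  exact IsIso.of_isIso_comp_left A.fromTildeΓ α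

variable (f : R ⟶ S) {M N : Type u} [AddCommGroup M] [Module R M] [AddCommGroup N] [Module S N]

/-- Every morphism to the pushforward comes from a semilinear map. -/
theorem exists_eq_toPush (θ : tM R M ⟶ (Scheme.Modules.pushforward (Spec.map f)).obj (tM S N)) :
    ∃ ρ : M →ₛₗ[f.hom] N, θ = toPush f ρ := by
  let e := LinearEquiv.ofBijective (tp S N) (tp_bijective S N)
  let ψ : M →ₛₗ[f.hom] Γ(tM S N, ⊤) :=
    { toFun := fun m => θ.app ⊤ (tp R M m)
      map_add' := fun x y => by rw [map_add]; exact map_add _ _ _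
      map_smul' := fun r x => by
        rw [map_smul, app_smul_Spec]; exact smul_pushforward f (tM S N) r _ }
  refine ⟨e.symm.toLinearMap.comp ψ, tM_hom_ext fun m => ?_⟩
  rw [toPush_app]
  exact (e.apply_symm_apply (ψ m)).symm

theorem isLocalized_toOpen (Q : ModuleCat.{u} R) (g : R) :
    IsLocalizedModule.Away g (tilde.toOpen Q (PrimeSpectrum.basicOpen g)).hom :=
  inferInstance

/-- When a semilinear map is a localisation away from `g`. -/
def IsLoc (g : R) (ρ : M →ₛₗ[f.hom] N) : Prop :=
  (∀ m, ρ m = 0 → ∃ n : ℕ, g ^ n • m = 0) ∧ ∀ y, ∃ (i : ℕ) (m : M), f g ^ i • y = ρ m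

theorem bijective_iff_isLoc (g : R) (hu : IsUnit (f g)) (ρ : M →ₛₗ[f.hom] N) {Q : Type u}
    [AddCommGroup Q] [Module R Q] (L : M →ₗ[R] Q) [IsLocalizedModule.Away g L] (e : Q →+ N)
    (he : ∀ (r : R) (x : Q), e (r • x) = f r • e x) (hL : ∀ m, e (L m) = ρ m) :
    Function.Bijective e ↔ IsLoc f g ρ := by
  have hu' : ∀ i : ℕ, IsUnit (f g ^ i) := fun i => hu.pow i
  have hQ : ∀ i : ℕ, Function.Bijective fun x : Q => g ^ i • x := fun i =>
    (Module.End.isUnit_iff _).1 (IsLocalizedModule.map_units (S := Submonoid.powers g) L ⟨g ^ i, ⟨i, rfl⟩⟩)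
  refine ⟨fun hb => ⟨fun m hm => ?_, fun y => ?_⟩, fun hρ => ⟨?_, fun y => ?_⟩⟩
  · have : L m = 0 := hb.1 (by rw [hL, hm, map_zero])
    obtain ⟨⟨_, n, rfl⟩, hn⟩ := (IsLocalizedModule.eq_zero_iff (.powers g) L).1 this
    exact ⟨n, hn⟩
  · obtain ⟨x, rfl⟩ := hb.2 y
    obtain ⟨⟨m, ⟨_, i, rfl⟩⟩, hx⟩ := IsLocalizedModule.surj (.powers g) L x
    refine ⟨i, m, ?_⟩
    rw [← map_pow, ← he, ← hL]
    exact congrArg e hx
  · rw [injective_iff_map_eq_zero]
    intro x hx
    obtain ⟨⟨m, ⟨_, i, rfl⟩⟩, hm⟩ := IsLocalizedModule.surj (.powers g) L x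
    replace hm : g ^ i • x = L m := hm
    obtain ⟨n, hn⟩ := hρ.1 m (by rw [← hL, ← hm, he, hx, smul_zero])
    have h2 : L m = 0 := (hQ n).1 (by simp only [← map_smul, hn, map_zero, smul_zero])
    exact (hQ i).1 (by simp only [hm, h2, smul_zero])
  · obtain ⟨i, m, hm⟩ := hρ.2 y
    obtain ⟨x, hx⟩ := (hQ i).2 (L m)
    refine ⟨x, (hu' i).smul_left_cancel.1 ?_⟩
    rw [hm, ← map_pow, ← he, ← hL]
    exact congrArg e hx

variable [IsOpenImmersion (Spec.map f)]

/-- Universality over a basic open is localisation. -/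
theorem isUniv_toPush_iff (g : R) (hu : IsUnit (f g))
    (hr : (Spec.map f).opensRange = PrimeSpectrum.basicOpen g) (ρ : M →ₛₗ[f.hom] N) :
    IsUniv (Spec.map f) (toPush f ρ) ↔ IsLoc f g ρ := by
  let θ := toPush f ρ
  have hV : (Spec.map f) ''ᵁ ⊤ = PrimeSpectrum.basicOpen g := by
    rw [Scheme.Hom.image_top_eq_opensRange, hr]
  let α := adjunct (Spec.map f) θ
  let et := LinearEquiv.ofBijective (tp S N) (tp_bijective S N)
  let mv : Γ(tM R M, PrimeSpectrum.basicOpen g) ⟶ Γ(tM R M, (Spec.map f) ''ᵁ ⊤) :=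
    (tM R M).presheaf.map (eqToHom hV).op
  let e : Γ(tM R M, PrimeSpectrum.basicOpen g) →+ N :=
    et.symm.toLinearMap.toAddMonoidHom.comp
      ((α.app ⊤).hom.comp mv.hom)
  have he : ∀ (r : R) (x : Γ(tM R M, PrimeSpectrum.basicOpen g)), e (r • x) = f r • e x := by
    intro r x
    have h1 : mv (r • x) = r • mv x := Scheme.Modules.map_smul_Spec _ r x
    have h2 : ∀ z : Γ(tM R M, (Spec.map f) ''ᵁ ⊤),
        α.app ⊤ (r • z) = f r • α.app ⊤ z := fun z => by
      have hz := Scheme.Modules.restrictAppIso_smul_Spec (M := tM R M) f r (U := ⊤)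
        (((tM R M).restrictAppIso (Spec.map f) ⊤).inv z)
      rw [← app_smul_Spec]
      exact congrArg (α.app ⊤) hz.symm
    show et.symm (α.app ⊤ (mv (r • x))) = f r • et.symm (α.app ⊤ (mv x))
    rw [h1, h2, map_smul]
  have hL : ∀ m, e ((tilde.toOpen (ModuleCat.of R M) (PrimeSpectrum.basicOpen g)).hom m) =
      ρ m := by
    intro m
    show et.symm _ = ρ m
    rw [LinearEquiv.symm_apply_eq]
    show _ = tp S N (ρ m)
    rw [← toPush_app f ρ m]
    have h1 : mv ((tilde.toOpen (ModuleCat.of R M) (PrimeSpectrum.basicOpen g)).hom m) =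
        (tM R M).presheaf.map (homOfLE (le_top : (Spec.map f) ''ᵁ ⊤ ≤ ⊤)).op (tp R M m) := by
      have : (tM R M).presheaf.map (homOfLE (le_top : PrimeSpectrum.basicOpen g ≤ ⊤)).op
          (tp R M m) = (tilde.toOpen (ModuleCat.of R M) (PrimeSpectrum.basicOpen g)).hom m := rfl
      rw [← this]
      exact congr($(((tM R M).presheaf.map_comp
        (homOfLE (le_top : PrimeSpectrum.basicOpen g ≤ ⊤)).op (eqToHom hV).op).symm)
          (tp R M m))
    have hn := congr($(θ.mapPresheaf.naturality
      (homOfLE (le_top : (Spec.map f) ''ᵁ ⊤ ≤ ⊤)).op) (tp R M m))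
    rw [ConcreteCategory.comp_apply, ConcreteCategory.comp_apply] at hn
    show α.app ⊤ (mv _) = _
    rw [h1]
    simp only [α, adjunct_app]
    refine (congrArg ((tM S N).presheaf.map
      (eqToHom ((Spec.map f).preimage_image_eq ⊤).symm).op).hom hn).trans ?_
    refine (congr($(((tM S N).presheaf.map_comp
      ((Opens.map (Spec.map f).base).map
        (homOfLE (le_top : (Spec.map f) ''ᵁ ⊤ ≤ ⊤))).op
      (eqToHom ((Spec.map f).preimage_image_eq ⊤).symm).op).symm)
        (θ.app ⊤ (tp R M m)))).trans ?_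
    exact congr($((tM S N).presheaf.map_id (op ⊤)) (θ.app ⊤ (tp R M m)))
  let L : (ModuleCat.of R M) →ₗ[R] Γ(tM R M, PrimeSpectrum.basicOpen g) :=
    (tilde.toOpen (ModuleCat.of R M) (PrimeSpectrum.basicOpen g)).hom
  have : IsLocalizedModule.Away g L := isLocalized_toOpen (ModuleCat.of R M) g
  rw [← bijective_iff_isLoc f g hu ρ L e he hL]
  have hmv : Function.Bijective mv :=
    ConcreteCategory.bijective_of_isIso (C := Ab) _
  constructor
  · intro h
    have : IsIso α := h
    exact (et.symm.bijective.comp (ConcreteCategory.bijective_of_isIso (α.app ⊤))).comp hmv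
  · intro h
    refine isIso_of_bijective_top α ?_
    exact ((et.symm.bijective.of_comp_iff' _).1 ((hmv.of_comp_iff _).1 h))

section Invertible

variable {M : Type u} [AddCommGroup M] [Module R M]

/-- The localisation map to `R[1/g]`. -/
noncomputable abbrev awayHom (g : R) : R ⟶ CommRingCat.of (Localization.Away g) :=
  CommRingCat.ofHom (algebraMap R (Localization.Away g))

theorem opensRange_awayHom (g : R) [IsOpenImmersion (Spec.map (awayHom g))] :
    (Spec.map (awayHom g)).opensRange = PrimeSpectrum.basicOpen g :=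
  Opens.ext (PrimeSpectrum.localization_away_comap_range (Localization.Away g) g)

theorem nonempty_restrict_away_iff (g : R) [IsOpenImmersion (Spec.map (awayHom g))] :
    Nonempty ((tM R M).restrict (Spec.map (awayHom g)) ≅
      SheafOfModules.unit (Spec (CommRingCat.of (Localization.Away g))).ringCatSheaf) ↔
    Nonempty (LocalizedModule.Away g M ≃ₗ[Localization.Away g] Localization.Away g) := by
  let ρ : M →ₛₗ[(awayHom g).hom] LocalizedModule.Away g M :=
    { toFun := fun m => LocalizedModule.mkLinearMap (Submonoid.powers g) M m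
      map_add' := fun x y => map_add _ x y
      map_smul' := fun r x => by
        rw [map_smul]
        exact (algebraMap_smul (Localization.Away g) r _).symm }
  have hu : IsUnit (awayHom g g) := IsLocalization.Away.algebraMap_isUnit g
  have hloc : IsLoc (awayHom g) g ρ := by
    refine ⟨fun m hm => ?_, fun y => ?_⟩
    · obtain ⟨⟨_, n, rfl⟩, hn⟩ := (IsLocalizedModule.eq_zero_iff (.powers g)
        (LocalizedModule.mkLinearMap (Submonoid.powers g) M)).1 hm
      exact ⟨n, hn⟩
    · obtain ⟨⟨m, ⟨_, i, rfl⟩⟩, hm⟩ := IsLocalizedModule.surj (.powers g)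
        (LocalizedModule.mkLinearMap (Submonoid.powers g) M) y
      refine ⟨i, m, ?_⟩
      rw [← map_pow]
      exact (algebraMap_smul (Localization.Away g) (g ^ i) y).trans hm
  have h : IsIso (adjunct (Spec.map (awayHom g)) (toPush (awayHom g) ρ)) :=
    (isUniv_toPush_iff (awayHom g) g hu (opensRange_awayHom g) ρ).2 hloc
  let a := @asIso _ _ _ _ _ h
  constructor
  · rintro ⟨b⟩
    let c : (tilde.functor (CommRingCat.of (Localization.Away g))).obj
          (ModuleCat.of (Localization.Away g) (LocalizedModule.Away g M)) ≅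
        (tilde.functor (CommRingCat.of (Localization.Away g))).obj
          (ModuleCat.of (Localization.Away g) (Localization.Away g)) :=
      (show tM (CommRingCat.of (Localization.Away g)) (LocalizedModule.Away g M) ≅
          tilde (ModuleCat.of (Localization.Away g) (Localization.Away g)) from
        a.symm ≪≫ b ≪≫ tildeSelf.symm)
    exact ⟨(tilde.fullyFaithfulFunctor.preimageIso c).toLinearEquiv⟩
  · rintro ⟨b⟩
    exact ⟨a ≪≫ (tilde.functor (CommRingCat.of (Localization.Away g))).mapIso b.toModuleIso ≪≫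
      tildeSelf⟩

/-- The module of an invertible sheaf is invertible. -/
theorem invertible_of_tM (h : Scheme.Modules.IsInvertible (tM R M)) : Module.Invertible R M := by
  refine invertible_of_local fun p => ?_
  obtain ⟨U, hU, a⟩ := exists_restrict_unit h p
  obtain ⟨_, ⟨g, rfl⟩, hp, hgU⟩ :=
    (Opens.isBasis_iff_nbhd.1 PrimeSpectrum.isBasis_basic_opens) hU
  have : IsOpenImmersion (Spec.map (awayHom g)) := inferInstance
  refine ⟨g, hp, (nonempty_restrict_away_iff g).1 (restrict_unit_of_le U.ι _ ?_ a)⟩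
  rw [Scheme.Opens.range_ι]
  intro x hx
  exact hgU (by rw [← opensRange_awayHom g]; exact hx)

/-- The sheaf of an invertible module is invertible. -/
theorem isInvertible_tM [Module.Invertible R M] : Scheme.Modules.IsInvertible (tM R M) := by
  refine isInvertible_of_local fun p => ?_
  obtain ⟨s, hs, hfree⟩ := Module.Invertible.exists_finset_free_localization R M
  obtain ⟨g, hg, hgp⟩ : ∃ g ∈ s, g ∉ p.asIdeal := by
    by_contra hcon
    push Not at hcon
    exact p.isPrime.ne_top (top_le_iff.1 (hs ▸ Ideal.span_le.2 fun g hg => hcon g hg))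
  have := hfree g hg
  have : IsOpenImmersion (Spec.map (awayHom g)) := inferInstance
  refine ⟨_, Spec.map (awayHom g), this, ?_,
    (nonempty_restrict_away_iff g).2 (Module.Invertible.free_iff_linearEquiv.1 (hfree g hg))⟩
  show p ∈ (Spec.map (awayHom g)).opensRange
  rw [opensRange_awayHom]
  exact hgp

end Invertible

end FLTAgent.Jac.Dict
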