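import Fermat.Agent.Jac.Dict.Charts
import Fermat.Agent.Jac.Dict.Local

/-!
# S25: the sheaf on `C × Spec A` given by line bundle data
-/

set_option autoImplicit false

universe u

open CategoryTheory CategoryTheory.Limits AlgebraicGeometry AlgebraicGeometry.RelPicard
  NeronModelInfra TensorProduct TopologicalSpace

namespace FLTAgent.Jac.Dict

variable {k : Type u} [Field k] {C : Scheme.{u}} {c : C ⟶ Spec (CommRingCat.of k)}
  {ε : SchemeHomOver (𝟙 (Spec (CommRingCat.of k))) c} {M : Model k}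
  (φ : CurveChart c ε M) {A : Type u} [CommRing A] [Algebra k A]

/-- The sheaf on the first chart. -/
noncomputable abbrev Gp (L : LineData M A) : (Spec (CommRingCat.of (M.Ap A))).Modules :=
  tM (CommRingCat.of (M.Ap A)) L.Mp

/-- The sheaf on the second chart. -/
noncomputable abbrev Gm (L : LineData M A) : (Spec (CommRingCat.of (M.Am A))).Modules :=
  tM (CommRingCat.of (M.Am A)) L.Mm

/-- The sheaf on the overlap. -/
noncomputable abbrev Gn (L : LineData M A) : (Spec (CommRingCat.of (M.Apm A))).Modules :=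
  tM (CommRingCat.of (M.Apm A)) L.N

/-- Restriction to the overlap from the first chart. -/
noncomputable abbrev θp (L : LineData M A) :
    Gp L ⟶ (Scheme.Modules.pushforward (Spec.map (fp M A))).obj (Gn L) :=
  toPush (fp M A) L.ρp

/-- Restriction to the overlap from the second chart. -/
noncomputable abbrev θm (L : LineData M A) :
    Gm L ⟶ (Scheme.Modules.pushforward (Spec.map (fm M A))).obj (Gn L) :=
  toPush (fm M A) L.ρm

/-- The first leg of the fibre product. -/
noncomputable abbrev legP (L : LineData M A) :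
    (Scheme.Modules.pushforward (φ.jpA A)).obj (Gp L) ⟶
      (Scheme.Modules.pushforward (joA φ A)).obj (Gn L) :=
  pcomp (fp_comp φ A) (𝟙 _) (θp L)

/-- The second leg of the fibre product. -/
noncomputable abbrev legM (L : LineData M A) :
    (Scheme.Modules.pushforward (φ.jmA A)).obj (Gm L) ⟶
      (Scheme.Modules.pushforward (joA φ A)).obj (Gn L) :=
  pcomp (fm_comp φ A) (𝟙 _) (θm L)

/-- The sheaf with given sections on the two charts. -/
noncomputable def sheafOf (L : LineData M A) : (pullback c (specOver k A)).Modules :=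
  pullback (legP φ L) (legM φ L)

/-- The sections on the first chart. -/
noncomputable def sheafFst (L : LineData M A) :
    sheafOf φ L ⟶ (Scheme.Modules.pushforward (φ.jpA A)).obj (Gp L) :=
  pullback.fst _ _

/-- The sections on the second chart. -/
noncomputable def sheafSnd (L : LineData M A) :
    sheafOf φ L ⟶ (Scheme.Modules.pushforward (φ.jmA A)).obj (Gm L) :=
  pullback.snd _ _

variable {φ}

theorem sheaf_condition (L : LineData M A) :
    pcomp (fp_comp φ A) (sheafFst φ L) (θp L) = pcomp (fm_comp φ A) (sheafSnd φ L) (θm L) := by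
  rw [← pcomp_id (fp_comp φ A), ← pcomp_id (fm_comp φ A)]
  exact pullback.condition

theorem isUniv_θp (L : LineData M A) : IsUniv (Spec.map (fp M A)) (θp L) := by
  rw [isUniv_toPush_iff (fp M A) (xP M A) (isUnit_fp A) (opensRange_fp A)]
  refine ⟨fun m hm => ⟨0, ?_⟩, fun y => ?_⟩
  · rw [L.ρp_inj (hm.trans (map_zero _).symm), smul_zero]
  · obtain ⟨i, m, hm⟩ := L.ρp_surj y
    refine ⟨i, m, ?_⟩
    show M.ipA A (xP M A) ^ i • y = _
    rw [ipA_xP, hm]

theorem isUniv_θm (L : LineData M A) : IsUniv (Spec.map (fm M A)) (θm L) := by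
  rw [isUniv_toPush_iff (fm M A) (yM M A) (isUnit_fm A) (opensRange_fm A)]
  refine ⟨fun m hm => ⟨0, ?_⟩, fun y => ?_⟩
  · rw [L.ρm_inj (hm.trans (map_zero _).symm), smul_zero]
  · obtain ⟨i, m, hm⟩ := L.ρm_surj y
    refine ⟨i, m, ?_⟩
    show M.imA A (yM M A) ^ i • y = _
    rw [imA_yM, hm]

theorem isIso_app_id {X : Scheme.{u}} (G : X.Modules) (V : X.Opens) :
    IsIso ((𝟙 G : G ⟶ G).app V) :=
  Scheme.Modules.Hom.id_app (U := V) G ▸ inferInstance

theorem isUniv_sheafFst (L : LineData M A) : IsUniv (φ.jpA A) (sheafFst φ L) := by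
  rw [isUniv_iff]
  intro V hV
  have := isIso_app_id ((Scheme.Modules.pushforward (φ.jmA A)).obj (Gm L)) V
  have hb : IsIso ((legM φ L).app V) :=
    (pcomp_isIso_app (fm_comp φ A) (𝟙 _) (θm L) V).2
      ((isUniv_iff.1 (isUniv_θm L)) _ fun p hp => mem_overlap φ A (hV hp))
  have h := ((IsPullback.of_hasPullback (legP φ L) (legM φ L)).map
    (Scheme.Modules.toPresheaf _)).map ((CategoryTheory.evaluation _ _).obj (.op V))
  have : IsIso (((CategoryTheory.evaluation _ _).obj (.op V)).map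
      ((Scheme.Modules.toPresheaf _).map (legM φ L))) := hb
  exact h.isIso_fst_of_isIso

theorem isUniv_sheafSnd (L : LineData M A) : IsUniv (φ.jmA A) (sheafSnd φ L) := by
  rw [isUniv_iff]
  intro V hV
  have := isIso_app_id ((Scheme.Modules.pushforward (φ.jpA A)).obj (Gp L)) V
  have hb : IsIso ((legP φ L).app V) :=
    (pcomp_isIso_app (fp_comp φ A) (𝟙 _) (θp L) V).2
      ((isUniv_iff.1 (isUniv_θp L)) _ fun p hp => mem_overlap' φ A (hV hp))
  have h := ((IsPullback.of_hasPullback (legP φ L) (legM φ L)).map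
    (Scheme.Modules.toPresheaf _)).map ((CategoryTheory.evaluation _ _).obj (.op V))
  have : IsIso (((CategoryTheory.evaluation _ _).obj (.op V)).map
      ((Scheme.Modules.toPresheaf _).map (legP φ L))) := hb
  exact h.isIso_snd_of_isIso

/-- Recognition of the sheaf of line bundle data. -/
theorem nonempty_iso_sheafOf {L : LineData M A} {F : (pullback c (specOver k A)).Modules}
    {qp : F ⟶ (Scheme.Modules.pushforward (φ.jpA A)).obj (Gp L)}
    {qm : F ⟶ (Scheme.Modules.pushforward (φ.jmA A)).obj (Gm L)}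
    (hp : IsUniv (φ.jpA A) qp) (hm : IsUniv (φ.jmA A) qm)
    (e : pcomp (fp_comp φ A) qp (θp L) = pcomp (fm_comp φ A) qm (θm L)) :
    Nonempty (F ≅ sheafOf φ L) := by
  rw [← pcomp_id (fp_comp φ A), ← pcomp_id (fm_comp φ A)] at e
  let Φ : F ⟶ sheafOf φ L := pullback.lift qp qm e
  have h1 : Φ ≫ sheafFst φ L = qp := pullback.lift_fst _ _ _
  have h2 : Φ ≫ sheafSnd φ L = qm := pullback.lift_snd _ _ _
  have : IsIso Φ := by
    refine isIso_of_small Φ {V | V ≤ (φ.jpA A).opensRange ∨ V ≤ (φ.jmA A).opensRange}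
      (fun V W hV hW => hV.imp hW.trans hW.trans) (fun p => ?_) fun V hV => ?_
    · rcases cover_A φ A p with h | h
      · exact ⟨_, Or.inl le_rfl, h⟩
      · exact ⟨_, Or.inr le_rfl, h⟩
    · rcases hV with hV | hV
      · exact hp.isIso_app (isUniv_sheafFst L) h1 hV
      · exact hm.isIso_app (isUniv_sheafSnd L) h2 hV
  exact ⟨asIso Φ⟩

theorem isInvertible_sheafOf (L : LineData M A) :
    Scheme.Modules.IsInvertible (sheafOf φ L) := by
  refine isInvertible_of_local fun p => ?_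
  rcases cover_A φ A p with ⟨q, rfl⟩ | ⟨q, rfl⟩
  · have h : IsIso (adjunct (φ.jpA A) (sheafFst φ L)) := isUniv_sheafFst L
    obtain ⟨U, hU, ⟨a⟩⟩ := exists_restrict_unit
      (isInvertible_tM (R := CommRingCat.of (M.Ap A)) (M := L.Mp)) q
    exact ⟨_, U.ι ≫ φ.jpA A, inferInstance, ⟨⟨q, hU⟩, rfl⟩,
      ⟨(Scheme.Modules.restrictFunctorComp U.ι (φ.jpA A)).app _ ≪≫
        (Scheme.Modules.restrictFunctor U.ι).mapIso (@asIso _ _ _ _ _ h) ≪≫ a⟩⟩
  · have h : IsIso (adjunct (φ.jmA A) (sheafSnd φ L)) := isUniv_sheafSnd L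
    obtain ⟨U, hU, ⟨a⟩⟩ := exists_restrict_unit
      (isInvertible_tM (R := CommRingCat.of (M.Am A)) (M := L.Mm)) q
    exact ⟨_, U.ι ≫ φ.jmA A, inferInstance, ⟨⟨q, hU⟩, rfl⟩,
      ⟨(Scheme.Modules.restrictFunctorComp U.ι (φ.jmA A)).app _ ≪≫
        (Scheme.Modules.restrictFunctor U.ι).mapIso (@asIso _ _ _ _ _ h) ≪≫ a⟩⟩

/-! ### Morphisms -/

theorem tilde_map_tp {R : CommRingCat.{u}} {P Q : Type u} [AddCommGroup P] [Module R P]
    [AddCommGroup Q] [Module R Q] (f : P →ₗ[R] Q) (x : P) :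
    (tilde.map (ModuleCat.ofHom f)).app ⊤ (tp R P x) = tp R Q (f x) :=
  congr($(tilde.toOpen_map_app (ModuleCat.ofHom f) ⊤).hom x)

theorem exists_linear_of_hom {R : CommRingCat.{u}} {P Q : Type u} [AddCommGroup P] [Module R P]
    [AddCommGroup Q] [Module R Q] (g : tM R P ⟶ tM R Q) :
    ∃ f : P →ₗ[R] Q, g = tilde.map (ModuleCat.ofHom f) ∧
      (IsIso g → Function.Bijective f) := by
  obtain ⟨f, hf⟩ := tilde.fullyFaithfulFunctor.map_surjective
    (X := ModuleCat.of R P) (Y := ModuleCat.of R Q) g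
  refine ⟨f.hom, hf.symm, fun h => ?_⟩
  have : IsIso ((tilde.functor R).map f) := hf ▸ h
  have := tilde.fullyFaithfulFunctor.isIso_of_isIso_map f
  exact ConcreteCategory.bijective_of_isIso f

theorem isIso_tilde_map {R : CommRingCat.{u}} {P Q : Type u} [AddCommGroup P] [Module R P]
    [AddCommGroup Q] [Module R Q] (f : P →ₗ[R] Q) (hf : Function.Bijective f) :
    IsIso (tilde.map (ModuleCat.ofHom f)) := by
  have : IsIso (ModuleCat.ofHom f) := (ConcreteCategory.isIso_iff_bijective _).2 hf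
  exact inferInstanceAs (IsIso ((tilde.functor R).map (ModuleCat.ofHom f)))

/-- Compatibility of maps on sheaves is compatibility of maps on modules. -/
theorem toPush_natural {R S : CommRingCat.{u}} (f : R ⟶ S) {P P' Q Q' : Type u}
    [AddCommGroup P] [Module R P] [AddCommGroup P'] [Module R P'] [AddCommGroup Q] [Module S Q]
    [AddCommGroup Q'] [Module S Q'] (ρ : P →ₛₗ[f.hom] Q) (ρ' : P' →ₛₗ[f.hom] Q')
    (a : P →ₗ[R] P') (b : Q →ₗ[S] Q') :
    tilde.map (ModuleCat.ofHom a) ≫ toPush f ρ' =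
      toPush f ρ ≫ (Scheme.Modules.pushforward (Spec.map f)).map
        (tilde.map (ModuleCat.ofHom b)) ↔ ∀ x, b (ρ x) = ρ' (a x) := by
  have h1 : ∀ x, (tilde.map (ModuleCat.ofHom a) ≫ toPush f ρ').app ⊤ (tp R P x) =
      tp S Q' (ρ' (a x)) := fun x => by
    rw [Scheme.Modules.Hom.comp_app, ConcreteCategory.comp_apply, tilde_map_tp, toPush_app]
  have h2 : ∀ x, (toPush f ρ ≫ (Scheme.Modules.pushforward (Spec.map f)).map
      (tilde.map (ModuleCat.ofHom b))).app ⊤ (tp R P x) = tp S Q' (b (ρ x)) := fun x => by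
    rw [Scheme.Modules.Hom.comp_app, ConcreteCategory.comp_apply, toPush_app]
    exact tilde_map_tp b (ρ x)
  refine ⟨fun e x => ?_, fun e => tM_hom_ext fun x => by rw [h1, h2, e]⟩
  apply (tp_bijective S Q').1
  rw [← h1, ← h2, e]

theorem nonempty_iso_of_equivalent {L L' : LineData M A} (e : LineData.Equivalent L L') :
    Nonempty (sheafOf φ L ≅ sheafOf φ L') := by
  obtain ⟨f, hp, hm, hn⟩ := e
  let gp : Gp L ⟶ Gp L' := tilde.map (ModuleCat.ofHom f.fp)
  let gm : Gm L ⟶ Gm L' := tilde.map (ModuleCat.ofHom f.fm)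
  let gn : Gn L ⟶ Gn L' := tilde.map (ModuleCat.ofHom f.fn)
  have hgp : gp ≫ θp L' = θp L ≫ (Scheme.Modules.pushforward _).map gn :=
    (toPush_natural (fp M A) L.ρp L'.ρp f.fp f.fn).2 f.comm_p
  have hgm : gm ≫ θm L' = θm L ≫ (Scheme.Modules.pushforward _).map gn :=
    (toPush_natural (fm M A) L.ρm L'.ρm f.fm f.fn).2 f.comm_m
  have ip : IsIso gp := isIso_tilde_map (R := CommRingCat.of (M.Ap A)) f.fp hp
  have im : IsIso gm := isIso_tilde_map (R := CommRingCat.of (M.Am A)) f.fm hm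
  refine nonempty_iso_sheafOf ((isUniv_sheafFst L).comp_map gp)
    ((isUniv_sheafSnd L).comp_map gm) ?_
  rw [pcomp_map_left, pcomp_map_left, hgp, hgm, ← pcomp_map_right, ← pcomp_map_right,
    sheaf_condition]

theorem isIso_of_univ {Z X : Scheme.{u}} {j : Z ⟶ X} [IsOpenImmersion j] {F : X.Modules}
    {G G' : Z.Modules} {q : F ⟶ (Scheme.Modules.pushforward j).obj G}
    {q' : F ⟶ (Scheme.Modules.pushforward j).obj G'} (hq : IsUniv j q) (hq' : IsUniv j q')
    {g : G ⟶ G'} (hg : q ≫ (Scheme.Modules.pushforward j).map g = q') : IsIso g := by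
  subst hg
  rw [IsUniv, adjunct_comp] at hq'
  have h1 : IsIso (adjunct j q) := hq
  exact IsIso.of_isIso_comp_left (adjunct j q) g

theorem equivalent_of_iso {L L' : LineData M A} (Φ : sheafOf φ L ≅ sheafOf φ L') :
    LineData.Equivalent L L' := by
  have hp' : IsUniv (φ.jpA A) (Φ.hom ≫ sheafFst φ L') := (isUniv_sheafFst L').precomp Φ.hom
  have hm' : IsUniv (φ.jmA A) (Φ.hom ≫ sheafSnd φ L') := (isUniv_sheafSnd L').precomp Φ.hom
  have hn : IsUniv (joA φ A) (pcomp (fp_comp φ A) (sheafFst φ L) (θp L)) :=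
    (isUniv_sheafFst L).pcomp (isUniv_θp L) (fp_comp φ A)
  have hn' : IsUniv (joA φ A) (pcomp (fp_comp φ A) (Φ.hom ≫ sheafFst φ L') (θp L')) :=
    hp'.pcomp (isUniv_θp L') (fp_comp φ A)
  obtain ⟨gp, hgp⟩ := (isUniv_sheafFst L).exists_desc (Φ.hom ≫ sheafFst φ L')
  obtain ⟨gm, hgm⟩ := (isUniv_sheafSnd L).exists_desc (Φ.hom ≫ sheafSnd φ L')
  obtain ⟨gn, hgn⟩ := hn.exists_desc (pcomp (fp_comp φ A) (Φ.hom ≫ sheafFst φ L') (θp L'))
  have ip : IsIso gp := isIso_of_univ (isUniv_sheafFst L) hp' hgp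
  have im : IsIso gm := isIso_of_univ (isUniv_sheafSnd L) hm' hgm
  have io : IsIso gn := isIso_of_univ hn hn' hgn
  have e1 : gp ≫ θp L' = θp L ≫ (Scheme.Modules.pushforward (Spec.map (fp M A))).map gn := by
    apply (pcomp_injective (fp_comp φ A) (isUniv_sheafFst L)).1
    rw [← pcomp_map_left, hgp, ← pcomp_map_right, hgn]
  have e2 : gm ≫ θm L' = θm L ≫ (Scheme.Modules.pushforward (Spec.map (fm M A))).map gn := by
    apply (pcomp_injective (fm_comp φ A) (isUniv_sheafSnd L)).1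
    rw [← pcomp_map_left, hgm, ← pcomp_map_right, ← sheaf_condition, hgn, ← precomp_pcomp,
      ← precomp_pcomp, sheaf_condition]
  obtain ⟨ap, hap, bp⟩ := exists_linear_of_hom (R := CommRingCat.of (M.Ap A)) (P := L.Mp)
    (Q := L'.Mp) gp
  obtain ⟨am, ham, bm⟩ := exists_linear_of_hom (R := CommRingCat.of (M.Am A)) (P := L.Mm)
    (Q := L'.Mm) gm
  obtain ⟨an, han, bn⟩ := exists_linear_of_hom (R := CommRingCat.of (M.Apm A)) (P := L.N)
    (Q := L'.N) gn
  rw [hap, han] at e1
  rw [ham, han] at e2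
  exact ⟨⟨ap, am, an, (toPush_natural (fp M A) L.ρp L'.ρp ap an).1 e1,
    (toPush_natural (fm M A) L.ρm L'.ρm am an).1 e2⟩, bp ip, bm im, bn io⟩

end FLTAgent.Jac.Dict
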