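import Mathlib

/-!
# S25: sheaves of modules on affine schemes by their global sections
-/

set_option autoImplicit false

universe u

open CategoryTheory AlgebraicGeometry TopologicalSpace
open scoped AlgebraicGeometry

namespace FLTAgent.Jac.Dict

variable {R S : CommRingCat.{u}}

/-- The sheaf attached to a module. -/
noncomputable abbrev tM (R : CommRingCat.{u}) (M : Type u) [AddCommGroup M] [Module R M] :
    (Spec R).Modules :=
  tilde (ModuleCat.of R M)

/-- An element of a module as a global section of its sheaf. -/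
noncomputable def tp (R : CommRingCat.{u}) (M : Type u) [AddCommGroup M] [Module R M] :
    M →ₗ[R] Γ(tM R M, ⊤) :=
  (tilde.toOpen (ModuleCat.of R M) ⊤).hom

theorem tp_bijective (R : CommRingCat.{u}) (M : Type u) [AddCommGroup M] [Module R M] :
    Function.Bijective (tp R M) :=
  ConcreteCategory.bijective_of_isIso (tilde.toOpen (ModuleCat.of R M) ⊤)

section

variable {M : Type u} [AddCommGroup M] [Module R M] {G : (Spec R).Modules}

theorem tM_hom_ext {g h : tM R M ⟶ G} (e : ∀ m, g.app ⊤ (tp R M m) = h.app ⊤ (tp R M m)) :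
    g = h :=
  (tilde.adjunction.homEquiv _ G).injective (by ext m; exact e m)

theorem exists_tM_hom (ρ : M →ₗ[R] Γ(G, ⊤)) :
    ∃ g : tM R M ⟶ G, ∀ m, g.app ⊤ (tp R M m) = ρ m :=
  ⟨(tilde.adjunction.homEquiv (ModuleCat.of R M) G).symm
      (ModuleCat.ofHom (Y := moduleSpecΓFunctor.obj G) ρ),
    fun m => congr($((tilde.adjunction.homEquiv (ModuleCat.of R M) G).apply_symm_apply _) m)⟩

end

theorem app_smul_Spec {G G' : (Spec R).Modules} (g : G ⟶ G') (U : (Spec R).Opens) (r : R)
    (x : Γ(G, U)) : g.app U (r • x) = r • g.app U x := by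
  rw [Scheme.Modules.smul_Spec_def, Scheme.Modules.smul_Spec_def, Scheme.Modules.Hom.app_smul]

theorem smul_pushforward (f : R ⟶ S) (H : (Spec S).Modules) (r : R) (x : Γ(H, ⊤)) :
    (r • (show Γ((Scheme.Modules.pushforward (Spec.map f)).obj H, ⊤) from x) :
      Γ((Scheme.Modules.pushforward (Spec.map f)).obj H, ⊤)) =
      (show Γ((Scheme.Modules.pushforward (Spec.map f)).obj H, ⊤) from (f r • x)) := by
  rw [Scheme.Modules.smul_Spec_def, Scheme.Modules.smul_Spec_def]
  show HSMul.hSMul (α := Γ(Spec S, ⊤)) ((Spec.map f).appTop _) x = _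
  congr 1
  have := congr($(Scheme.ΓSpecIso_inv_naturality f).hom r)
  exact this.symm

section

variable (f : R ⟶ S) {M N : Type u} [AddCommGroup M] [Module R M] [AddCommGroup N] [Module S N]

theorem exists_toPush {H : (Spec S).Modules} (ψ : M →ₛₗ[f.hom] Γ(H, ⊤)) :
    ∃ g : tM R M ⟶ (Scheme.Modules.pushforward (Spec.map f)).obj H,
      ∀ m, g.app ⊤ (tp R M m) = ψ m :=
  exists_tM_hom (G := (Scheme.Modules.pushforward (Spec.map f)).obj H)
    { toFun := fun m => ψ m
      map_add' := fun a b => ψ.map_add a b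
      map_smul' := fun r m => by
        rw [RingHom.id_apply, map_smulₛₗ]
        exact (smul_pushforward f H r (ψ m)).symm }

/-- The morphism of sheaves given by a semilinear map. -/
noncomputable def toPush (ρ : M →ₛₗ[f.hom] N) :
    tM R M ⟶ (Scheme.Modules.pushforward (Spec.map f)).obj (tM S N) :=
  (exists_toPush f ((tp S N).comp ρ)).choose

theorem toPush_app (ρ : M →ₛₗ[f.hom] N) (m : M) :
    (toPush f ρ).app ⊤ (tp R M m) = tp S N (ρ m) :=
  (exists_toPush f ((tp S N).comp ρ)).choose_spec m

/-- A semilinear map between invertible modules whose image spans is a base change. -/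
theorem exists_lift_semilinear [Module.Invertible R M] [Module.Invertible S N]
    (ρ : M →ₛₗ[f.hom] N) (hρ : Submodule.span S (Set.range ρ) = ⊤)
    {P : Type u} [AddCommGroup P] [Module S P] (ψ : M →ₛₗ[f.hom] P) :
    ∃ g : N →ₗ[S] P, ∀ m, g (ρ m) = ψ m := by
  algebraize [f.hom]
  let : Module R N := Module.compHom N f.hom
  let : Module R P := Module.compHom P f.hom
  have : IsScalarTower R S N := .of_algebraMap_smul fun _ _ => rfl
  have : IsScalarTower R S P := .of_algebraMap_smul fun _ _ => rfl
  let ρ' : M →ₗ[R] N :=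
    { toFun := ρ, map_add' := ρ.map_add, map_smul' := fun r m => ρ.map_smulₛₗ r m }
  let ψ' : M →ₗ[R] P :=
    { toFun := ψ, map_add' := ψ.map_add, map_smul' := fun r m => ψ.map_smulₛₗ r m }
  let t : TensorProduct R S M →ₗ[S] N := ρ'.liftBaseChange S
  have hs : Function.Surjective t := by
    rw [← LinearMap.range_eq_top, LinearMap.range_liftBaseChange]
    exact hρ
  let e := LinearEquiv.ofBijective t (Module.Invertible.bijective_of_surjective hs)
  refine ⟨(ψ'.liftBaseChange S).comp e.symm.toLinearMap, fun m => ?_⟩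
  have : e.symm (ρ m) = 1 ⊗ₜ m := by
    rw [LinearEquiv.symm_apply_eq]
    simp [e, t, ρ']
  simp [this, ψ']

/-- Morphisms out of the sheaf of a base change. -/
theorem toPush_bijective [Module.Invertible R M] [Module.Invertible S N] (ρ : M →ₛₗ[f.hom] N)
    (hρ : Submodule.span S (Set.range ρ) = ⊤) (H : (Spec S).Modules) :
    Function.Bijective fun g : tM S N ⟶ H =>
      toPush f ρ ≫ (Scheme.Modules.pushforward (Spec.map f)).map g := by
  have key : ∀ (g : tM S N ⟶ H) (m : M),
      (toPush f ρ ≫ (Scheme.Modules.pushforward (Spec.map f)).map g).app ⊤ (tp R M m) =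
        g.app ⊤ (tp S N (ρ m)) := fun g m => by
    rw [Scheme.Modules.Hom.comp_app, ConcreteCategory.comp_apply, toPush_app]
    rfl
  refine ⟨fun g h e => tM_hom_ext fun n => ?_, fun a => ?_⟩
  · let lin : (tM S N ⟶ H) → (N →ₗ[S] Γ(H, ⊤)) := fun g =>
      { toFun := fun n => g.app ⊤ (tp S N n)
        map_add' := fun x y => by simp
        map_smul' := fun r x => by rw [RingHom.id_apply, map_smul, app_smul_Spec] }
    have : lin g = lin h := LinearMap.ext_on hρ <| by
      rintro _ ⟨m, rfl⟩
      exact (key g m).symm.trans ((congr(($e).app ⊤ (tp R M m))).trans (key h m))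
    exact LinearMap.congr_fun this n
  · let ψ : M →ₛₗ[f.hom] Γ(H, ⊤) :=
      { toFun := fun m => a.app ⊤ (tp R M m)
        map_add' := fun x y => by rw [map_add]; exact map_add _ _ _
        map_smul' := fun r x => by
          rw [map_smul, app_smul_Spec]; exact smul_pushforward f H r _ }
    obtain ⟨l, hl⟩ := exists_lift_semilinear f ρ hρ ψ
    obtain ⟨g, hg⟩ := exists_tM_hom l
    exact ⟨g, tM_hom_ext fun m => (key g m).trans ((hg _).trans (hl m))⟩

end

end FLTAgent.Jac.Dict
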