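import Fermat.Agent.Jac.Dict.Tilde

/-!
# S25: morphisms to a pushforward along an open immersion that are isomorphisms over the open
-/

set_option autoImplicit false

universe u

open CategoryTheory AlgebraicGeometry TopologicalSpace Opposite
open scoped AlgebraicGeometry

namespace FLTAgent.Jac.Dict

variable {X Y Z : Scheme.{u}}

theorem isIso_presheaf_map (G : X.Modules) {U V : X.Opens} (h : U = V) :
    IsIso (G.presheaf.map (eqToHom h).op) :=
  Functor.map_isIso G.presheaf _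

/-- The morphism on the open adjunct to a morphism to the pushforward. -/
noncomputable def adjunct (j : X ⟶ Y) [IsOpenImmersion j] {F : Y.Modules} {G : X.Modules}
    (q : F ⟶ (Scheme.Modules.pushforward j).obj G) : F.restrict j ⟶ G :=
  ((Scheme.Modules.restrictAdjunction j).homEquiv F G).symm q

/-- `q` identifies the restriction of `F` to the open with `G`. -/
def IsUniv (j : X ⟶ Y) [IsOpenImmersion j] {F : Y.Modules} {G : X.Modules}
    (q : F ⟶ (Scheme.Modules.pushforward j).obj G) : Prop :=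
  IsIso (adjunct j q)

section

variable {j : X ⟶ Y} [IsOpenImmersion j] {F : Y.Modules} {G H : X.Modules}
  {q : F ⟶ (Scheme.Modules.pushforward j).obj G}

theorem adjunct_app (W : X.Opens) :
    (adjunct j q).app W =
      q.app (j ''ᵁ W) ≫ G.presheaf.map (eqToHom (j.preimage_image_eq W).symm).op :=
  rfl

theorem adjunct_comp (g : G ⟶ H) :
    adjunct j (q ≫ (Scheme.Modules.pushforward j).map g) = adjunct j q ≫ g :=
  (Scheme.Modules.restrictAdjunction j).homEquiv_naturality_right_symm q g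

theorem exists_image_eq {V : Y.Opens} (hV : V ≤ j.opensRange) :
    ∃ W : X.Opens, V = j ''ᵁ W :=
  ⟨j ⁻¹ᵁ V, by rw [j.image_preimage_eq_opensRange_inf]; exact (inf_eq_right.2 hV).symm⟩

theorem isUniv_iff : IsUniv j q ↔ ∀ V : Y.Opens, V ≤ j.opensRange → IsIso (q.app V) := by
  rw [IsUniv, Scheme.Modules.Hom.isIso_iff_isIso_app]
  constructor
  · intro h V hV
    obtain ⟨W, rfl⟩ := exists_image_eq hV
    have := h W
    rw [adjunct_app] at this
    have := isIso_presheaf_map G (j.preimage_image_eq W).symm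
    exact @IsIso.of_isIso_comp_right _ _ _ _ _ _
      (G.presheaf.map (eqToHom (j.preimage_image_eq W).symm).op)
      (isIso_presheaf_map G (j.preimage_image_eq W).symm) ‹_›
  · intro h W
    rw [adjunct_app]
    have := h _ (j.image_le_opensRange W)
    have := isIso_presheaf_map G (j.preimage_image_eq W).symm
    exact @IsIso.comp_isIso _ _ _ _ _ _ _ (h _ (j.image_le_opensRange W))
      (isIso_presheaf_map G (j.preimage_image_eq W).symm)

theorem IsUniv.hom_ext (hq : IsUniv j q) {g h : G ⟶ H}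
    (e : q ≫ (Scheme.Modules.pushforward j).map g = q ≫ (Scheme.Modules.pushforward j).map h) :
    g = h := by
  have := congrArg (adjunct j) e
  rw [adjunct_comp, adjunct_comp] at this
  have : IsIso (adjunct j q) := hq
  rwa [cancel_epi] at *

theorem IsUniv.exists_desc (hq : IsUniv j q) (a : F ⟶ (Scheme.Modules.pushforward j).obj H) :
    ∃ g : G ⟶ H, q ≫ (Scheme.Modules.pushforward j).map g = a := by
  have : IsIso (adjunct j q) := hq
  refine ⟨inv (adjunct j q) ≫ adjunct j a,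
    ((Scheme.Modules.restrictAdjunction j).homEquiv F H).symm.injective ?_⟩
  show adjunct j _ = adjunct j a
  rw [adjunct_comp, IsIso.hom_inv_id_assoc]

theorem IsUniv.bijective (hq : IsUniv j q) (H : X.Modules) :
    Function.Bijective fun g : G ⟶ H => q ≫ (Scheme.Modules.pushforward j).map g :=
  ⟨fun _ _ e => hq.hom_ext e, hq.exists_desc⟩

theorem isUniv_of_bijective
    (h : ∀ H : X.Modules, Function.Bijective fun g : G ⟶ H =>
      q ≫ (Scheme.Modules.pushforward j).map g) : IsUniv j q := by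
  have h' : ∀ H : X.Modules, Function.Bijective fun g : G ⟶ H => adjunct j q ≫ g := fun H => by
    have := ((Scheme.Modules.restrictAdjunction j).homEquiv F H).symm.bijective.comp (h H)
    convert this using 1
    funext g
    exact (adjunct_comp g).symm
  obtain ⟨l, hl⟩ := (h' _).2 (𝟙 (F.restrict j))
  dsimp only at hl
  exact ⟨l, hl, (h' _).1 (by simp [reassoc_of% hl])⟩

/-- The unit is universal. -/
theorem isUniv_unit (j : X ⟶ Y) [IsOpenImmersion j] (F : Y.Modules) :
    IsUniv j ((Scheme.Modules.restrictAdjunction j).unit.app F) := by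
  have : adjunct j ((Scheme.Modules.restrictAdjunction j).unit.app F) = 𝟙 _ :=
    (Equiv.symm_apply_eq _).2 ((Scheme.Modules.restrictAdjunction j).homEquiv_id F).symm
  rw [IsUniv, this]
  infer_instance

theorem IsUniv.comp_map (hq : IsUniv j q) (g : G ⟶ H) [IsIso g] :
    IsUniv j (q ≫ (Scheme.Modules.pushforward j).map g) := by
  have : IsIso (adjunct j q) := hq
  rw [IsUniv, adjunct_comp]
  infer_instance

theorem IsUniv.precomp {F' : Y.Modules} (hq : IsUniv j q) (Φ : F' ⟶ F) [IsIso Φ] :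
    IsUniv j (Φ ≫ q) := by
  rw [isUniv_iff] at hq ⊢
  intro V hV
  have := hq V hV
  rw [Scheme.Modules.Hom.comp_app]
  infer_instance

/-- A morphism compatible with universal morphisms is an isomorphism over the open. -/
theorem IsUniv.isIso_app {F' : Y.Modules} {q' : F' ⟶ (Scheme.Modules.pushforward j).obj G}
    (hq : IsUniv j q) (hq' : IsUniv j q') {Φ : F ⟶ F'} (e : Φ ≫ q' = q) {V : Y.Opens}
    (hV : V ≤ j.opensRange) : IsIso (Φ.app V) := by
  have h1 := (isUniv_iff.1 hq) V hV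
  have h2 := (isUniv_iff.1 hq') V hV
  rw [← e, Scheme.Modules.Hom.comp_app] at h1
  exact IsIso.of_isIso_comp_right _ (q'.app V)

end

section

variable {W : Scheme.{u}} {j : X ⟶ Y} {ι : W ⟶ X} {F : Y.Modules} {G G' : X.Modules}
  {H H' : W.Modules}

/-- Composition of morphisms to pushforwards. -/
noncomputable def pcomp {jι : W ⟶ Y} (h : ι ≫ j = jι)
    (p : F ⟶ (Scheme.Modules.pushforward j).obj G)
    (q : G ⟶ (Scheme.Modules.pushforward ι).obj H) :
    F ⟶ (Scheme.Modules.pushforward jι).obj H :=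
  p ≫ (Scheme.Modules.pushforward j).map q ≫ (Scheme.Modules.pushforwardComp ι j).hom.app H ≫
    (Scheme.Modules.pushforwardCongr h).hom.app H

theorem pcomp_id {jι : W ⟶ Y} (h : ι ≫ j = jι) (p : F ⟶ (Scheme.Modules.pushforward j).obj G)
    (q : G ⟶ (Scheme.Modules.pushforward ι).obj H) :
    p ≫ pcomp h (𝟙 ((Scheme.Modules.pushforward j).obj G)) q = pcomp h p q := by
  simp [pcomp]

theorem precomp_pcomp {F' : Y.Modules} (Φ : F' ⟶ F) {jι : W ⟶ Y} (h : ι ≫ j = jι)
    (p : F ⟶ (Scheme.Modules.pushforward j).obj G)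
    (q : G ⟶ (Scheme.Modules.pushforward ι).obj H) :
    Φ ≫ pcomp h p q = pcomp h (Φ ≫ p) q := by
  simp [pcomp]

theorem pcomp_map_left {jι : W ⟶ Y} (h : ι ≫ j = jι)
    (p : F ⟶ (Scheme.Modules.pushforward j).obj G) (g : G ⟶ G')
    (q : G' ⟶ (Scheme.Modules.pushforward ι).obj H) :
    pcomp h (p ≫ (Scheme.Modules.pushforward j).map g) q = pcomp h p (g ≫ q) := by
  simp [pcomp]

theorem pcomp_app (p : F ⟶ (Scheme.Modules.pushforward j).obj G)
    (q : G ⟶ (Scheme.Modules.pushforward ι).obj H) (V : Y.Opens) :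
    (pcomp (rfl : ι ≫ j = ι ≫ j) p q).app V = p.app V ≫ q.app (j ⁻¹ᵁ V) := by
  simp [pcomp]

theorem pcomp_map_right {jι : W ⟶ Y} (h : ι ≫ j = jι)
    (p : F ⟶ (Scheme.Modules.pushforward j).obj G)
    (q : G ⟶ (Scheme.Modules.pushforward ι).obj H) (g : H ⟶ H') :
    pcomp h p q ≫ (Scheme.Modules.pushforward jι).map g =
      pcomp h p (q ≫ (Scheme.Modules.pushforward ι).map g) := by
  subst h
  ext V x
  simp only [pcomp_app, Scheme.Modules.Hom.comp_app, Scheme.Modules.pushforward_map_app]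
  rfl

theorem pcomp_isIso_app {jι : W ⟶ Y} (h : ι ≫ j = jι)
    (p : F ⟶ (Scheme.Modules.pushforward j).obj G)
    (q : G ⟶ (Scheme.Modules.pushforward ι).obj H) (V : Y.Opens) [IsIso (p.app V)] :
    IsIso ((pcomp h p q).app V) ↔ IsIso (q.app (j ⁻¹ᵁ V)) := by
  subst h
  rw [pcomp_app]
  exact ⟨fun h' => @IsIso.of_isIso_comp_left _ _ _ _ _ (p.app V) _ ‹_› h',
    fun h' => @IsIso.comp_isIso _ _ _ _ _ _ _ ‹_› h'⟩

variable [IsOpenImmersion j] [IsOpenImmersion ι] {jι : W ⟶ Y} [IsOpenImmersion jι]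
  {p : F ⟶ (Scheme.Modules.pushforward j).obj G} {q : G ⟶ (Scheme.Modules.pushforward ι).obj H}

omit [IsOpenImmersion ι] in
theorem opensRange_le (h : ι ≫ j = jι) : jι.opensRange ≤ j.opensRange := by
  rintro _ ⟨x, rfl⟩
  subst h
  exact ⟨ι x, rfl⟩

theorem IsUniv.pcomp (hp : IsUniv j p) (hq : IsUniv ι q) (h : ι ≫ j = jι) :
    IsUniv jι (pcomp h p q) := by
  rw [isUniv_iff] at hp hq ⊢
  intro V hV
  have := hp V (hV.trans (opensRange_le h))
  rw [pcomp_isIso_app]
  refine hq _ fun x hx => ?_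
  obtain ⟨w, hw⟩ := hV hx
  subst h
  exact ⟨w, j.isOpenEmbedding.injective hw⟩

theorem isUniv_of_pcomp (hp : IsUniv j p) (h : ι ≫ j = jι) (hpq : IsUniv jι (Dict.pcomp h p q)) :
    IsUniv ι q := by
  rw [isUniv_iff] at hp hpq ⊢
  intro U hU
  have hV : j ''ᵁ U ≤ jι.opensRange := by
    rintro _ ⟨x, hx, rfl⟩
    obtain ⟨w, hw⟩ := hU hx
    subst h
    exact ⟨w, congrArg j hw⟩
  have := hp _ (hV.trans (opensRange_le h))
  have := (pcomp_isIso_app h p q _).1 (hpq _ hV)
  rwa [j.preimage_image_eq] at this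

end

/-- Being an isomorphism can be checked on small opens. -/
theorem isIso_of_small {A B : X.Modules} (φ : A ⟶ B) (S : Set X.Opens)
    (hS : ∀ V W : X.Opens, V ∈ S → W ≤ V → W ∈ S) (hcov : ∀ p : X, ∃ V ∈ S, p ∈ V)
    (h : ∀ V ∈ S, IsIso (φ.app V)) : IsIso φ := by
  rw [← isIso_iff_of_reflects_iso _ (Scheme.Modules.toPresheaf X)]
  have hB : Opens.IsBasis (Set.range fun V : S => (V : X.Opens)) := by
    rw [Opens.isBasis_iff_nbhd]
    intro U p hp
    obtain ⟨V, hV, hpV⟩ := hcov p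
    exact ⟨U ⊓ V, ⟨⟨U ⊓ V, hS V _ hV inf_le_right⟩, rfl⟩, ⟨hp, hpV⟩, inf_le_left⟩
  let φ' : (⟨A.presheaf, A.isSheaf⟩ : TopCat.Sheaf Ab X) ⟶ ⟨B.presheaf, B.isSheaf⟩ :=
    ⟨φ.mapPresheaf⟩
  have : IsIso φ' := TopCat.Sheaf.isIso_iff_isIso_basis (φ := φ') hB fun V => h V.1 V.2
  exact @Functor.map_isIso _ _ _ _ _ _ (TopCat.Sheaf.forget Ab X) φ' this

section Extra

variable {W V : Scheme.{u}} {j : X ⟶ Y} {ι : W ⟶ X} {F : Y.Modules} {G : X.Modules}
  {H : W.Modules}

theorem pcomp_injective [IsOpenImmersion j] {jι : W ⟶ Y} (h : ι ≫ j = jι)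
    {p : F ⟶ (Scheme.Modules.pushforward j).obj G} (hp : IsUniv j p) :
    Function.Bijective (pcomp (H := H) h p) := by
  have e : pcomp (H := H) h p = (fun a => a ≫ ((Scheme.Modules.pushforwardComp ι j).app H ≪≫
      (Scheme.Modules.pushforwardCongr h).app H).hom) ∘
      fun q => p ≫ (Scheme.Modules.pushforward j).map q := by
    funext q
    simp [pcomp]
  rw [e]
  refine Function.Bijective.comp ?_ (hp.bijective _)
  exact ⟨fun a b hab => (cancel_mono _).1 hab, fun a => ⟨a ≫ ((Scheme.Modules.pushforwardComp ι j).app H ≪≫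
      (Scheme.Modules.pushforwardCongr h).app H).inv, by simp⟩⟩

theorem pcomp_assoc {τ : V ⟶ W} {K : V.Modules} {jι : W ⟶ Y} (h1 : ι ≫ j = jι)
    {e : V ⟶ X} (h4 : τ ≫ ι = e) {f : V ⟶ Y} (h2 : τ ≫ jι = f) (h3 : e ≫ j = f)
    (p : F ⟶ (Scheme.Modules.pushforward j).obj G)
    (a : G ⟶ (Scheme.Modules.pushforward ι).obj H)
    (b : H ⟶ (Scheme.Modules.pushforward τ).obj K) :
    pcomp h2 (pcomp h1 p a) b = pcomp h3 p (pcomp h4 a b) := by
  subst h1 h4 h2
  ext U x
  simp [pcomp]

end Extra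

end FLTAgent.Jac.Dict
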